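import Fermat.Agent.S22_Prim

set_option autoImplicit false

open Complex Filter Topology
open UpperHalfPlane hiding I
open scoped Real Manifold

namespace Fermat.Agent.S22

/-- Chain rule for the Möbius action. -/
theorem HasDerivH.comp_smul {F f : ℍ → ℂ} (h : HasDerivH F f) (g : GL (Fin 2) ℝ)
    (hg : 0 < g.det.val) :
    HasDerivH (fun τ => F (g • τ)) (fun τ => f (g • τ) * (g.val.det / denom g τ ^ 2)) := by
  intro τ
  have h1 : HasDerivAt (fun z : ℂ => ((g • ofComplex z : ℍ) : ℂ)) (g.val.det / denom g τ ^ 2) τ :=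
    (hasStrictDerivAt_smul hg τ).hasDerivAt
  have h2 : HasDerivAt (F ∘ ofComplex) (f (g • τ)) ((g • ofComplex (τ : ℂ) : ℍ) : ℂ) := by
    rw [ofComplex_apply]
    exact h (g • τ)
  have h3 := h2.comp (τ : ℂ) h1
  refine h3.congr_of_eventuallyEq (Eventually.of_forall fun z => ?_)
  simp [Function.comp_apply, ofComplex_apply]

theorem HasDerivH.add {F f F' f' : ℍ → ℂ} (h : HasDerivH F f) (h' : HasDerivH F' f') :
    HasDerivH (F + F') (f + f') := fun τ => (h τ).add (h' τ)

theorem HasDerivH.const_mul {F f : ℍ → ℂ} (h : HasDerivH F f) (c : ℂ) :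
    HasDerivH (fun τ => c * F τ) (fun τ => c * f τ) := fun τ => (h τ).const_mul c

theorem Dec.add {φ ψ : ℍ → ℂ} (h : Dec φ) (h' : Dec ψ) : Dec (φ + ψ) := by
  obtain ⟨w, hw, hp⟩ := h.per
  obtain ⟨w', hw', hp'⟩ := h'.per
  refine ⟨h.holo.add h'.holo, ?_, ⟨w * w', Nat.mul_pos hw hw', ?_⟩⟩
  · have := h.zero.add h'.zero
    simpa [IsZeroAtImInfty, ZeroAtFilter] using this
  · have e1 : (((w * w' : ℕ) : ℝ) : ℂ) = (w' : ℕ) * ((w : ℝ) : ℂ) := by push_cast; ring
    have e2 : (((w * w' : ℕ) : ℝ) : ℂ) = (w : ℕ) * ((w' : ℝ) : ℂ) := by push_cast; ring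
    intro z
    have a1 : (φ ∘ ofComplex) (z + (((w * w' : ℕ) : ℝ) : ℂ)) = (φ ∘ ofComplex) z := by
      rw [e1]; exact hp.nat_mul w' z
    have a2 : (ψ ∘ ofComplex) (z + (((w * w' : ℕ) : ℝ) : ℂ)) = (ψ ∘ ofComplex) z := by
      rw [e2]; exact hp'.nat_mul w z
    simp only [Function.comp_apply, Pi.add_apply] at a1 a2 ⊢
    rw [a1, a2]

theorem Dec.const_mul {φ : ℍ → ℂ} (h : Dec φ) (c : ℂ) : Dec (fun τ => c * φ τ) := by
  obtain ⟨w, hw, hp⟩ := h.per
  refine ⟨?_, ?_, ⟨w, hw, ?_⟩⟩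
  · exact (mdifferentiable_const (c := c)).mul h.holo
  · have := h.zero.const_mul c
    simpa [IsZeroAtImInfty, ZeroAtFilter] using this
  · intro z
    have := hp z
    simp only [Function.comp_apply] at this ⊢
    rw [this]

theorem prim_add {φ ψ : ℍ → ℂ} (h : Dec φ) (h' : Dec ψ) : prim (φ + ψ) = prim φ + prim ψ := by
  symm
  refine prim_unique (h.add h') (h.hasDerivH_prim.add h'.hasDerivH_prim) ?_
  have := h.dec_prim.zero.add h'.dec_prim.zero
  simpa [IsZeroAtImInfty, ZeroAtFilter] using this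

theorem prim_const_mul {φ : ℍ → ℂ} (h : Dec φ) (c : ℂ) :
    prim (fun τ => c * φ τ) = fun τ => c * prim φ τ := by
  symm
  refine prim_unique (h.const_mul c) (h.hasDerivH_prim.const_mul c) ?_
  have := h.dec_prim.zero.const_mul c
  simpa [IsZeroAtImInfty, ZeroAtFilter] using this

/-- Equivariance of `prim` under upper triangular matrices. -/
theorem prim_comp_smul {ψ : ℍ → ℂ} (h : Dec ψ) (g : GL (Fin 2) ℝ) (hg : 0 < g.det.val)
    (hg10 : g 1 0 = 0) (h' : Dec (fun τ => ψ (g • τ))) :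
    prim (fun τ => ψ (g • τ)) = fun τ => ((g 1 1 : ℂ) / (g 0 0 : ℂ)) * prim ψ (g • τ) := by
  symm
  have hdet : g.val.det = g 0 0 * g 1 1 := by
    rw [Matrix.det_fin_two]
    change g 0 0 * g 1 1 - g 0 1 * g 1 0 = _
    rw [hg10]; ring
  have hdet' : g.val.det = g.det.val := rfl
  have hpos : 0 < g 0 0 * g 1 1 := by rw [← hdet, hdet']; exact hg
  have ha : (g 0 0 : ℂ) ≠ 0 := by
    have : g 0 0 ≠ 0 := fun h0 => by rw [h0, zero_mul] at hpos; exact lt_irrefl _ hpos
    exact_mod_cast this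
  have hd : (g 1 1 : ℂ) ≠ 0 := by
    have : g 1 1 ≠ 0 := fun h0 => by rw [h0, mul_zero] at hpos; exact lt_irrefl _ hpos
    exact_mod_cast this
  refine prim_unique h' ?_ ?_
  · have h1 := (h.hasDerivH_prim.comp_smul g hg).const_mul ((g 1 1 : ℂ) / (g 0 0 : ℂ))
    intro τ
    refine (h1 τ).congr_deriv ?_
    have hden : denom g τ = (g 1 1 : ℂ) := by simp [denom, hg10]
    beta_reduce
    rw [hden, hdet]
    push_cast
    field_simp
  · have h2 : Tendsto (fun τ : ℍ => prim ψ (g • τ)) atImInfty (𝓝 0) :=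
      h.dec_prim.zero.comp (tendsto_smul_atImInfty hg10)
    have := h2.const_mul ((g 1 1 : ℂ) / (g 0 0 : ℂ))
    simpa [IsZeroAtImInfty, ZeroAtFilter] using this

theorem Dec.iterate_prim {φ : ℍ → ℂ} (h : Dec φ) (m : ℕ) : Dec (prim^[m] φ) := by
  induction m with
  | zero => exact h
  | succ m ih => rw [Function.iterate_succ_apply']; exact ih.dec_prim

theorem iterate_prim_add {φ ψ : ℍ → ℂ} (h : Dec φ) (h' : Dec ψ) (m : ℕ) :
    prim^[m] (φ + ψ) = prim^[m] φ + prim^[m] ψ := by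
  induction m with
  | zero => rfl
  | succ m ih =>
    rw [Function.iterate_succ_apply', Function.iterate_succ_apply', Function.iterate_succ_apply',
      ih, prim_add (h.iterate_prim m) (h'.iterate_prim m)]

theorem iterate_prim_const_mul {φ : ℍ → ℂ} (h : Dec φ) (c : ℂ) (m : ℕ) :
    prim^[m] (fun τ => c * φ τ) = fun τ => c * prim^[m] φ τ := by
  induction m with
  | zero => rfl
  | succ m ih =>
    rw [Function.iterate_succ_apply', Function.iterate_succ_apply', ih,
      prim_const_mul (h.iterate_prim m)]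

theorem iterate_prim_comp_smul {ψ : ℍ → ℂ} (h : Dec ψ) (g : GL (Fin 2) ℝ) (hg : 0 < g.det.val)
    (hg10 : g 1 0 = 0) (h' : Dec (fun τ => ψ (g • τ))) (m : ℕ) :
    prim^[m] (fun τ => ψ (g • τ)) =
      fun τ => ((g 1 1 : ℂ) / (g 0 0 : ℂ)) ^ m * prim^[m] ψ (g • τ) := by
  induction m with
  | zero => funext τ; simp
  | succ m ih =>
    have hdm : Dec (fun τ => (prim^[m] ψ) (g • τ)) := by
      have h1 := (h'.iterate_prim m).const_mul (((g 1 1 : ℂ) / (g 0 0 : ℂ)) ^ m)⁻¹
      rw [ih] at h1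
      by_cases hc : ((g 1 1 : ℂ) / (g 0 0 : ℂ)) ^ m = 0
      · -- degenerate: cannot happen, but handle uniformly
        exfalso
        have hdet : g.val.det = g 0 0 * g 1 1 := by
          rw [Matrix.det_fin_two]
          change g 0 0 * g 1 1 - g 0 1 * g 1 0 = _
          rw [hg10]; ring
        have hdet' : g.val.det = g.det.val := rfl
        have hpos : 0 < g 0 0 * g 1 1 := by rw [← hdet, hdet']; exact hg
        have ha : (g 0 0 : ℂ) ≠ 0 := by
          have : g 0 0 ≠ 0 := fun h0 => by rw [h0, zero_mul] at hpos; exact lt_irrefl _ hpos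
          exact_mod_cast this
        have hd : (g 1 1 : ℂ) ≠ 0 := by
          have : g 1 1 ≠ 0 := fun h0 => by rw [h0, mul_zero] at hpos; exact lt_irrefl _ hpos
          exact_mod_cast this
        exact pow_ne_zero m (div_ne_zero hd ha) hc
      · convert h1 using 2 with τ
        field_simp
    rw [Function.iterate_succ_apply', Function.iterate_succ_apply', ih,
      prim_const_mul hdm, prim_comp_smul (h.iterate_prim m) g hg hg10 hdm]
    funext τ
    ring

end Fermat.Agent.S22
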