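-- Statement S02: a counterexample to Fermat for a prime p ≥ 5 yields a Frey package.
import Fermat.Statements.S02

set_option autoImplicit false
open FreyPackage

namespace Fermat.Agent.S02

/-- If `gcd a b = 1` (GCD-monoid gcd on `ℤ`) then `2` does not divide both. -/
theorem not_two_dvd_both {a b : ℤ} (hgcd : gcd a b = 1) (ha : (2 : ℤ) ∣ a) (hb : (2 : ℤ) ∣ b) :
    False := by
  have h : (2 : ℤ) ∣ gcd a b := dvd_gcd ha hb
  rw [hgcd] at h
  omega

/-- Final packaging: coprime, `b` even, `a ≡ 3 mod 4`. -/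
theorem pkg_of_mod_four {a b c : ℤ} (ha : a ≠ 0) (hb : b ≠ 0) (hc : c ≠ 0) {p : ℕ}
    (pp : p.Prime) (hp5 : 5 ≤ p) (H : a ^ p + b ^ p = c ^ p) (hgcd : gcd a b = 1)
    (hb2 : (2 : ℤ) ∣ b) (ha4 : a % 4 = 3) : Nonempty FreyPackage := by
  refine ⟨{ a := a, b := b, c := c, ha0 := ha, hb0 := hb, hc0 := hc, p := p, pp := pp,
            hp5 := hp5, hFLT := H, hgcdab := hgcd, ha4 := ?_, hb2 := ?_ }⟩
  · have h : ((a : ZMod 4)) = ((3 : ℤ) : ZMod 4) := by
      rw [ZMod.intCast_eq_intCast_iff_dvd_sub]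
      have : ((4 : ℕ) : ℤ) = 4 := by norm_num
      rw [this]
      omega
    rw [h]
    norm_num
  · exact (ZMod.intCast_zmod_eq_zero_iff_dvd b 2).2 (by exact_mod_cast hb2)

/-- Coprime and `b` even: negate if necessary to get `a ≡ 3 mod 4`. -/
theorem pkg_of_even {a b c : ℤ} (ha : a ≠ 0) (hb : b ≠ 0) (hc : c ≠ 0) {p : ℕ}
    (pp : p.Prime) (hp5 : 5 ≤ p) (H : a ^ p + b ^ p = c ^ p) (hgcd : gcd a b = 1)
    (hb2 : (2 : ℤ) ∣ b) : Nonempty FreyPackage := by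
  have p_odd : Odd p := pp.odd_of_ne_two (by omega)
  have ha2 : ¬ (2 : ℤ) ∣ a := fun h => not_two_dvd_both hgcd h hb2
  have hmod : a % 4 = 3 ∨ a % 4 = 1 := by omega
  rcases hmod with h3 | h1
  · exact pkg_of_mod_four ha hb hc pp hp5 H hgcd hb2 h3
  · refine pkg_of_mod_four (a := -a) (b := -b) (c := -c) (neg_ne_zero.2 ha) (neg_ne_zero.2 hb)
      (neg_ne_zero.2 hc) pp hp5 ?_ ?_ ?_ ?_
    · rw [p_odd.neg_pow, p_odd.neg_pow, p_odd.neg_pow, ← H]; ring
    · rw [gcd_neg, neg_gcd]; exact hgcd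
    · exact (dvd_neg).2 hb2
    · omega

/-- Coprime case: permute so that `b` is even. -/
theorem pkg_of_coprime {a b c : ℤ} (ha : a ≠ 0) (hb : b ≠ 0) (hc : c ≠ 0) {p : ℕ}
    (pp : p.Prime) (hp5 : 5 ≤ p) (H : a ^ p + b ^ p = c ^ p) (hgcd : gcd a b = 1) :
    Nonempty FreyPackage := by
  have p_odd : Odd p := pp.odd_of_ne_two (by omega)
  have hp0 : p ≠ 0 := by omega
  by_cases hb2 : (2 : ℤ) ∣ b
  · exact pkg_of_even ha hb hc pp hp5 H hgcd hb2
  by_cases ha2 : (2 : ℤ) ∣ a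
  · refine pkg_of_even (a := b) (b := a) (c := c) hb ha hc pp hp5 ?_ ?_ ha2
    · rw [add_comm]; exact H
    · rw [gcd_comm]; exact hgcd
  -- both odd, so `c` is even
  have hc2 : (2 : ℤ) ∣ c := by
    have h2 : Prime (2 : ℤ) := Int.prime_two
    have hodd_a : Odd a := by
      rw [← Int.not_even_iff_odd, even_iff_two_dvd]; exact ha2
    have hodd_b : Odd b := by
      rw [← Int.not_even_iff_odd, even_iff_two_dvd]; exact hb2
    have hsum : Even (a ^ p + b ^ p) := (hodd_a.pow).add_odd (hodd_b.pow)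
    rw [H, even_iff_two_dvd] at hsum
    exact h2.dvd_of_dvd_pow hsum
  have hgcdac : gcd a c = 1 := by
    rw [← FreyPackage.gcdab_eq_gcdac (Nat.pos_of_ne_zero hp0) H]; exact hgcd
  refine pkg_of_even (a := a) (b := -c) (c := -b) ha (neg_ne_zero.2 hc) (neg_ne_zero.2 hb)
    pp hp5 ?_ ?_ ((dvd_neg).2 hc2)
  · rw [p_odd.neg_pow, p_odd.neg_pow, ← H]; ring
  · rw [gcd_neg]; exact hgcdac

theorem result (a b c : ℤ) (ha : a ≠ 0) (hb : b ≠ 0) (hc : c ≠ 0) (p : ℕ) (pp : p.Prime) (hp5 : 5 ≤ p) (H : a ^ p + b ^ p = c ^ p) : Nonempty FreyPackage := by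
  have hp0 : p ≠ 0 := by omega
  have hpos : 0 < Int.gcd a b := Int.gcd_pos_of_ne_zero_left b ha
  obtain ⟨a', b', hcop, ha', hb'⟩ := Int.exists_gcd_one hpos
  set d : ℤ := (Int.gcd a b : ℤ) with hd
  have hd0 : d ≠ 0 := by
    rw [hd]; exact_mod_cast hpos.ne'
  have hdc : d ∣ c := by
    rw [← Int.pow_dvd_pow_iff hp0, ← H]
    exact dvd_add (pow_dvd_pow_of_dvd (Int.gcd_dvd_left a b) p)
      (pow_dvd_pow_of_dvd (Int.gcd_dvd_right a b) p)
  obtain ⟨c', hc'⟩ := hdc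
  have ha'0 : a' ≠ 0 := by
    rintro rfl; apply ha; rw [ha']; simp
  have hb'0 : b' ≠ 0 := by
    rintro rfl; apply hb; rw [hb']; simp
  have hc'0 : c' ≠ 0 := by
    rintro rfl; apply hc; rw [hc']; simp
  have H' : a' ^ p + b' ^ p = c' ^ p := by
    have h1 : d ^ p * (a' ^ p + b' ^ p) = d ^ p * c' ^ p := by
      have : (a' * d) ^ p + (b' * d) ^ p = (d * c') ^ p := by
        rw [← ha', ← hb', ← hc']; exact H
      rw [mul_pow, mul_pow, mul_pow] at this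
      linarith
    exact mul_left_cancel₀ (pow_ne_zero p hd0) h1
  have hgcd' : gcd a' b' = 1 := by
    change ((Int.gcd a' b' : ℕ) : ℤ) = 1
    rw [hcop]; rfl
  exact pkg_of_coprime ha'0 hb'0 hc'0 pp hp5 H' hgcd'

end Fermat.Agent.S02
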