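-- Statement S05: the mod-`p` Galois representation of the Frey curve is unramified at every odd
-- prime `q ≠ p`.  Case M (`q ∣ abc`, multiplicative reduction): `Fermat.Agent.S05.CaseM`
-- (x-only fold rule).  Case G (`q ∤ abc`, good reduction): `Fermat.Agent.S05.CaseG`.
import Fermat.Statements.S05
import Fermat.Agent.S05.CaseM
import Fermat.Agent.S05.CaseG

set_option autoImplicit false
open WeierstrassCurve WeierstrassCurve.Affine WeierstrassCurve.Affine.Point
open CuspForm ModularFormClass UpperHalfPlane
open FreyPackage

namespace Fermat.Agent.S05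

theorem result (P : FreyPackage) {q : ℕ} (hq : q.Prime) (hq2 : q ≠ 2) (hqp : q ≠ P.p) : P.GaloisRepUnramifiedAt q := by
  by_cases h : (q : ℤ) ∣ P.a * P.b * P.c
  · exact CaseM.unramified_of_dvd P hq hq2 hqp h
  · exact CaseG.unramified_of_not_dvd P hq hq2 hqp h

end Fermat.Agent.S05
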