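import Fermat.Statements.S07
import Fermat.Prelude.Thm_ModularForm_sturm_bound_Gamma0
-- import your own Fermat.Agent.* helpers here

set_option autoImplicit false
open WeierstrassCurve WeierstrassCurve.Affine WeierstrassCurve.Affine.Point
open CuspForm ModularFormClass UpperHalfPlane
open ModularForm

namespace Fermat.Agent.S07

open scoped MatrixGroups

/-- A cusp form regarded as a modular form. -/
noncomputable def cuspToModular {Γ : Subgroup (GL (Fin 2) ℝ)} {k : ℤ} (f : CuspForm Γ k) :
    ModularForm Γ k where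
  toSlashInvariantForm := f.toSlashInvariantForm
  holo' := f.holo'
  bdd_at_cusps' := fun hc g hg => (f.zero_at_cusps' hc g hg).boundedAtFilter

theorem cuspToModular_coe {Γ : Subgroup (GL (Fin 2) ℝ)} {k : ℤ} (f : CuspForm Γ k) :
    (cuspToModular f : ℍ → ℂ) = (f : ℍ → ℂ) := rfl

/-- The first column of a matrix in `SL(2, ℤ)`, reduced mod `2`. -/
def firstCol (g : SL(2, ℤ)) : ZMod 2 × ZMod 2 := ((g 0 0 : ZMod 2), (g 1 0 : ZMod 2))

theorem firstCol_eq_imp (g h : SL(2, ℤ)) (hgh : firstCol g = firstCol h) :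
    g⁻¹ * h ∈ CongruenceSubgroup.Gamma0 2 := by
  rw [CongruenceSubgroup.Gamma0_mem]
  have h1 : (g 0 0 : ZMod 2) = (h 0 0 : ZMod 2) := congrArg Prod.fst hgh
  have h2 : (g 1 0 : ZMod 2) = (h 1 0 : ZMod 2) := congrArg Prod.snd hgh
  have hmul : (g⁻¹ * h) 1 0 = - g 1 0 * h 0 0 + g 0 0 * h 1 0 := by
    rw [Matrix.SpecialLinearGroup.coe_mul, Matrix.SpecialLinearGroup.SL2_inv_expl,
      Matrix.mul_apply, Fin.sum_univ_two]
    simp
  rw [hmul]
  push_cast
  rw [h1, h2]
  ring

theorem gamma0_two_index_le : (CongruenceSubgroup.Gamma0 2).index ≤ 4 := by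
  classical
  let φ : SL(2, ℤ) ⧸ CongruenceSubgroup.Gamma0 2 → ZMod 2 × ZMod 2 :=
    fun q => firstCol q.out
  have hφ : Function.Injective φ := by
    intro a b hab
    have hmem := firstCol_eq_imp a.out b.out hab
    have : (QuotientGroup.mk a.out : SL(2, ℤ) ⧸ CongruenceSubgroup.Gamma0 2) =
        QuotientGroup.mk b.out := QuotientGroup.eq.mpr hmem
    simpa using this
  have hcard : Nat.card (ZMod 2 × ZMod 2) = 4 := by
    rw [Nat.card_prod, Nat.card_zmod]
  calc (CongruenceSubgroup.Gamma0 2).index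
      = Nat.card (SL(2, ℤ) ⧸ CongruenceSubgroup.Gamma0 2) := rfl
    _ ≤ Nat.card (ZMod 2 × ZMod 2) := Nat.card_le_card_of_injective φ hφ
    _ = 4 := hcard

theorem result (f : CuspForm (CongruenceSubgroup.Gamma0 2) 2) : f = 0 := by
  have h0 : cuspToModular f = 0 := by
    refine ModularForm.sturm_bound_Gamma0 2 (cuspToModular f) ?_
    intro n hn
    have hn0 : n = 0 := by
      have hle := gamma0_two_index_le
      have h12 : ((2 : ℤ) * (((CongruenceSubgroup.Gamma0 2).index : ℕ) : ℤ)).toNat / 12 = 0 := by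
        have : ((2 : ℤ) * (((CongruenceSubgroup.Gamma0 2).index : ℕ) : ℤ)).toNat
            = 2 * (CongruenceSubgroup.Gamma0 2).index := by
          have : ((2 : ℤ) * (((CongruenceSubgroup.Gamma0 2).index : ℕ) : ℤ))
            = ((2 * (CongruenceSubgroup.Gamma0 2).index : ℕ) : ℤ) := by push_cast; ring
          rw [this, Int.toNat_natCast]
        rw [this]
        omega
      rw [h12] at hn
      exact Nat.le_zero.mp hn
    subst hn0
    rw [cuspToModular_coe]
    exact CuspFormClass.qExpansion_coeff_zero f one_pos (by simp)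
  ext z
  have := congrArg (fun g : ModularForm (CongruenceSubgroup.Gamma0 2) 2 => (g : ℍ → ℂ) z) h0
  simpa [cuspToModular_coe] using this

end Fermat.Agent.S07
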