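import Fermat.Statements.S08
import Fermat.Prelude.Thm_ModularForm_sturm_bound_Gamma0
-- import your own Fermat.Agent.* helpers here

set_option autoImplicit false
open WeierstrassCurve WeierstrassCurve.Affine WeierstrassCurve.Affine.Point
open CuspForm ModularFormClass UpperHalfPlane
open ModularForm

namespace Fermat.Agent.S08

/-- A cusp form regarded as a modular form. -/
noncomputable def cuspToModular {Γ : Subgroup (GL (Fin 2) ℝ)} {k : ℤ} (f : CuspForm Γ k) :
    ModularForm Γ k where
  toSlashInvariantForm := f.toSlashInvariantForm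
  holo' := f.holo'
  bdd_at_cusps' := fun hc g hg => (f.zero_at_cusps' hc g hg).boundedAtFilter

theorem cuspToModular_coe {Γ : Subgroup (GL (Fin 2) ℝ)} {k : ℤ} (f : CuspForm Γ k) :
    (cuspToModular f : ℍ → ℂ) = (f : ℍ → ℂ) := rfl

theorem gamma0_one_index : (CongruenceSubgroup.Gamma0 1).index = 1 := by
  have h : CongruenceSubgroup.Gamma0 1 = ⊤ := by
    ext g
    simp [CongruenceSubgroup.Gamma0_mem, eq_iff_true_of_subsingleton]
  rw [h, Subgroup.index_top]

theorem result (f : CuspForm (CongruenceSubgroup.Gamma0 1) 2) : f = 0 := by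
  have h0 : cuspToModular f = 0 := by
    refine ModularForm.sturm_bound_Gamma0 1 (cuspToModular f) ?_
    intro n hn
    rw [gamma0_one_index] at hn
    have hn0 : n = 0 := by
      have h12 : ((2 : ℤ) * ((1 : ℕ) : ℤ)).toNat / 12 = 0 := by decide
      rw [h12] at hn
      exact Nat.le_zero.mp hn
    subst hn0
    rw [cuspToModular_coe]
    exact CuspFormClass.qExpansion_coeff_zero f one_pos (by simp)
  ext z
  have := congrArg (fun g : ModularForm (CongruenceSubgroup.Gamma0 1) 2 => (g : ℍ → ℂ) z) h0
  simpa [cuspToModular_coe] using this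

end Fermat.Agent.S08
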