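import Fermat.Statements.S10
import Fermat.Agent.FLTSmall.Main
import Fermat.Agent.FLTSmall.PID7
import Fermat.Agent.FLTSmall.PID13

set_option autoImplicit false
open WeierstrassCurve WeierstrassCurve.Affine WeierstrassCurve.Affine.Point
open CuspForm ModularFormClass UpperHalfPlane
open FreyPackage

namespace Fermat.Agent.S10

theorem result (P : FreyPackage) (hp : P.p = 5 ∨ P.p = 7 ∨ P.p = 13) : ¬ HasGaloisStableCofixedLine (K := AlgebraicClosure ℚ) ℚ P.freyCurve P.p := by
  rcases hp with hp | hp | hp
  · have hcyc := Fermat.Agent.FLTSmall.isCyclotomicExtension_cyclotomicField_rat 5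
    have hPID : IsPrincipalIdealRing (NumberField.RingOfIntegers (CyclotomicField 5 ℚ)) :=
      IsCyclotomicExtension.Rat.five_pid (CyclotomicField 5 ℚ)
    exact (Fermat.Agent.FLTSmall.no_freyPackage_of_pid P hp (Or.inl rfl) hPID).elim
  · have hcyc := Fermat.Agent.FLTSmall.isCyclotomicExtension_cyclotomicField_rat 7
    have hPID : IsPrincipalIdealRing (NumberField.RingOfIntegers (CyclotomicField 7 ℚ)) :=
      Fermat.Agent.FLTSmall.seven_pid (CyclotomicField 7 ℚ)
    exact (Fermat.Agent.FLTSmall.no_freyPackage_of_pid P hp (Or.inr (Or.inl rfl)) hPID).elim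
  · have hcyc := Fermat.Agent.FLTSmall.isCyclotomicExtension_cyclotomicField_rat 13
    have hPID : IsPrincipalIdealRing (NumberField.RingOfIntegers (CyclotomicField 13 ℚ)) :=
      Fermat.Agent.FLTSmall.thirteen_pid (CyclotomicField 13 ℚ)
    exact (Fermat.Agent.FLTSmall.no_freyPackage_of_pid P hp (Or.inr (Or.inr (Or.inr rfl))) hPID).elim

end Fermat.Agent.S10
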