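import Fermat.Statements.S11
import Fermat.Agent.FLTSmall.Main
import Fermat.Agent.FLTSmall.PID11

set_option autoImplicit false
open WeierstrassCurve WeierstrassCurve.Affine WeierstrassCurve.Affine.Point
open CuspForm ModularFormClass UpperHalfPlane
open FreyPackage

namespace Fermat.Agent.S11

theorem result (P : FreyPackage) (hp : P.p = 11) : ¬ HasGaloisStableCofixedLine (K := AlgebraicClosure ℚ) ℚ P.freyCurve P.p := by
  have hcyc := Fermat.Agent.FLTSmall.isCyclotomicExtension_cyclotomicField_rat 11
  have hPID : IsPrincipalIdealRing (NumberField.RingOfIntegers (CyclotomicField 11 ℚ)) :=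
    Fermat.Agent.FLTSmall.eleven_pid (CyclotomicField 11 ℚ)
  exact (Fermat.Agent.FLTSmall.no_freyPackage_of_pid P hp (Or.inr (Or.inr (Or.inl rfl))) hPID).elim

end Fermat.Agent.S11
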