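/-
Existence of Frobenius elements in the absolute Galois group of `ℚ`.

Main results (all in the namespace `Fermat.Agent.S54`):
* `exists_liesOverPrime`: in a field of characteristic zero, every prime number lies under
  some valuation subring.
* `exists_isFrobeniusAt`: for every valuation subring `A` of `AlgebraicClosure ℚ` lying over a
  prime number `ℓ`, there is `σ` in the absolute Galois group with `A.IsFrobeniusAt σ ℓ`.
* `isAlgClosure_Qbar`: the instance `IsAlgClosure ℚ (AlgebraicClosure ℚ)` for the algebra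
  structure `DivisionRing.toRatAlgebra` used by the frozen statements.
-/
import Mathlib.RingTheory.Invariant.Profinite
import Mathlib.FieldTheory.Galois.Profinite
import Mathlib.FieldTheory.Galois.Infinite
import Mathlib.RingTheory.Valuation.LocalSubring
import Mathlib.RingTheory.Valuation.RamificationGroup
import Mathlib.FieldTheory.IsAlgClosed.AlgebraicClosure
import Fermat.Prelude.Def_EllipticCurve_FrobeniusTrace
import Fermat.Prelude.Def_FLTPrelim_Ramification

set_option autoImplicit false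


open Polynomial

namespace Fermat.Agent.S54

/-- A Seidenberg-type lemma: if `B` is integrally closed in the field `L`, contained in the
valuation subring `A`, and `u` is a root of a polynomial over `B` one of whose coefficients is a
unit of `A`, then `u` or `u⁻¹` is a fraction of elements of `B` whose denominator is a unit
of `A`. -/
theorem seidenberg_aux {L : Type*} [Field L] (A : ValuationSubring L) {B : Type*} [CommRing B]
    [Algebra B L]
    (hB : ∀ x : L, IsIntegral B x → ∃ b : B, algebraMap B L b = x) :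
    ∀ (n : ℕ) (p : B[X]), p.natDegree ≤ n → (∃ i, algebraMap B L (p.coeff i) ∉ A.nonunits) →
      ∀ u : L, aeval u p = 0 →
      (∃ s b : B, algebraMap B L s ∉ A.nonunits ∧ algebraMap B L s * u = algebraMap B L b) ∨
      (∃ s b : B, algebraMap B L s ∉ A.nonunits ∧ algebraMap B L s * u⁻¹ = algebraMap B L b) := by
  have h0 : (0 : L) ∈ A.nonunits := by
    rw [ValuationSubring.mem_nonunits_iff, map_zero]; exact zero_lt_one
  intro n
  induction n with
  | zero =>
    intro p hp ⟨i, hi⟩ u hu
    exfalso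
    rw [Polynomial.eq_C_of_natDegree_le_zero hp] at hu hi
    rw [aeval_C] at hu
    apply hi
    rw [coeff_C]
    split_ifs
    · rw [hu]; exact h0
    · rw [map_zero]; exact h0
  | succ n ih =>
    intro p hp ⟨i, hi⟩ u hu
    by_cases hdeg : p.natDegree ≤ n
    · exact ih p hdeg ⟨i, hi⟩ u hu
    have hdeg' : p.natDegree = n + 1 := by omega
    obtain ⟨v, hv⟩ := hB _ (isIntegral_leadingCoeff_smul p u hu)
    rw [Algebra.smul_def] at hv
    by_cases h1 : algebraMap B L p.leadingCoeff ∈ A.nonunits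
    swap
    · left; exact ⟨p.leadingCoeff, v, h1, hv.symm⟩
    by_cases h2 : algebraMap B L v ∈ A.nonunits
    swap
    · right
      refine ⟨v, p.leadingCoeff, h2, ?_⟩
      have hu0 : u ≠ 0 := by
        rintro rfl
        apply h2; rw [hv, mul_zero]; exact h0
      rw [hv, mul_assoc, mul_inv_cancel₀ hu0, mul_one]
    have hadd : ∀ x y : L, x ∈ A.nonunits → y ∈ A.nonunits → x + y ∈ A.nonunits := by
      intro x y hx hy
      rw [ValuationSubring.mem_nonunits_iff] at hx hy ⊢
      exact lt_of_le_of_lt (Valuation.map_add _ x y) (max_lt hx hy)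
    have hpe : p.eraseLead + C p.leadingCoeff * X ^ (n + 1) = p := by
      rw [← hdeg']; exact eraseLead_add_C_mul_X_pow p
    refine ih (C v * X ^ n + p.eraseLead) ?_ ⟨i, ?_⟩ u ?_
    · refine (natDegree_add_le _ _).trans (max_le (natDegree_C_mul_X_pow_le v n) ?_)
      have := eraseLead_natDegree_le p
      omega
    · intro hmem
      apply hi
      rw [coeff_add, coeff_C_mul_X_pow, eraseLead_coeff, hdeg'] at hmem
      by_cases hin : i = n + 1
      · rw [hin, ← hdeg', coeff_natDegree]; exact h1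
      rw [if_neg hin] at hmem
      by_cases hin' : i = n
      · rw [if_pos hin', map_add] at hmem
        have h3 : -algebraMap B L v ∈ A.nonunits := by
          rw [ValuationSubring.mem_nonunits_iff, Valuation.map_neg]
          exact (ValuationSubring.mem_nonunits_iff A).mp h2
        have := hadd _ _ h3 hmem
        rwa [neg_add_cancel_left] at this
      · rwa [if_neg hin', zero_add] at hmem
    · have h4 : aeval u p = aeval u p.eraseLead + algebraMap B L p.leadingCoeff * u ^ (n + 1) := by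
        conv_lhs => rw [← hpe]
        rw [map_add, map_mul, aeval_C, map_pow, aeval_X]
      rw [map_add, map_mul, aeval_C, map_pow, aeval_X, hv, mul_assoc, ← pow_succ', add_comm, ← h4,
        hu]

section ValSub

variable {L : Type*} [Field L] (A : ValuationSubring L)

theorem zero_mem_nonunits : (0 : L) ∈ A.nonunits := by
  rw [ValuationSubring.mem_nonunits_iff, map_zero]; exact zero_lt_one

theorem one_not_mem_nonunits : (1 : L) ∉ A.nonunits := by
  rw [ValuationSubring.mem_nonunits_iff, map_one]; exact lt_irrefl _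

theorem add_mem_nonunits {x y : L} (hx : x ∈ A.nonunits) (hy : y ∈ A.nonunits) :
    x + y ∈ A.nonunits := by
  rw [ValuationSubring.mem_nonunits_iff] at hx hy ⊢
  exact lt_of_le_of_lt (Valuation.map_add _ x y) (max_lt hx hy)

theorem mul_mem_nonunits {x y : L} (hx : x ∈ A) (hy : y ∈ A.nonunits) :
    x * y ∈ A.nonunits := by
  rw [ValuationSubring.mem_nonunits_iff] at hy ⊢
  rw [map_mul]
  have hx' : A.valuation x ≤ 1 := (ValuationSubring.valuation_le_one_iff A x).mpr hx
  exact Right.mul_lt_one_of_le_of_lt hx' hy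

/-- An integer is a nonunit of a valuation subring over `ℓ` iff it is divisible by `ℓ`. -/
theorem int_mem_nonunits_iff {ℓ : ℕ} (hℓ : ℓ.Prime) (hA : (ℓ : L) ∈ A.nonunits) (n : ℤ) :
    (n : L) ∈ A.nonunits ↔ (ℓ : ℤ) ∣ n := by
  constructor
  · intro hn
    by_contra hdvd
    have hcop : IsCoprime (ℓ : ℤ) n :=
      (Nat.prime_iff_prime_int.mp hℓ).coprime_iff_not_dvd.mpr hdvd
    obtain ⟨x, y, hxy⟩ := hcop
    apply one_not_mem_nonunits A
    have h1 : ((x : L) * (ℓ : L)) + (y : L) * (n : L) = 1 := by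
      have := congrArg (Int.cast : ℤ → L) hxy
      push_cast at this
      exact this
    rw [← h1]
    exact add_mem_nonunits A (mul_mem_nonunits A (intCast_mem A x) hA)
      (mul_mem_nonunits A (intCast_mem A y) hn)
  · rintro ⟨k, rfl⟩
    push_cast
    rw [mul_comm]
    exact mul_mem_nonunits A (intCast_mem A k) hA

/-- Every element of a valuation subring over `ℓ` that is algebraic over `ℤ` is a fraction
of integral elements with denominator a unit of the valuation subring. -/
theorem exists_integral_mul_eq [CharZero L] {ℓ : ℕ} (hℓ : ℓ.Prime) (hA : (ℓ : L) ∈ A.nonunits)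
    {u : L} (hu : u ∈ A) (halg : IsAlgebraic ℤ u) :
    ∃ s b : integralClosure ℤ L, (s : L) ∉ A.nonunits ∧ (s : L) * u = b := by
  obtain ⟨p, hp0, hp⟩ := halg
  have hq : aeval u p.primPart = 0 := aeval_primPart_eq_zero hp0 hp
  have hprim : p.primPart.IsPrimitive := isPrimitive_primPart p
  have hex : ∃ i, ¬ ((ℓ : ℤ) ∣ p.primPart.coeff i) := by
    by_contra hall
    have hall' : ∀ i, (ℓ : ℤ) ∣ p.primPart.coeff i := fun i =>
      Classical.byContradiction fun h => hall ⟨i, h⟩
    have hdvd : C (ℓ : ℤ) ∣ p.primPart := (C_dvd_iff_dvd_coeff _ _).mpr hall'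
    have hunit := hprim _ hdvd
    exact (Nat.prime_iff_prime_int.mp hℓ).not_isUnit hunit
  obtain ⟨i, hi⟩ := hex
  have hB : ∀ x : L, IsIntegral (integralClosure ℤ L) x →
      ∃ b : integralClosure ℤ L, algebraMap (integralClosure ℤ L) L b = x := by
    intro x hx
    exact ⟨⟨x, isIntegral_trans x hx⟩, rfl⟩
  have key := seidenberg_aux A hB _ (p.primPart.map (algebraMap ℤ (integralClosure ℤ L))) le_rfl
    ⟨i, by
      rw [coeff_map, ← IsScalarTower.algebraMap_apply, eq_intCast]
      exact fun h => hi ((int_mem_nonunits_iff A hℓ hA _).mp h)⟩ u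
    (by rw [aeval_map_algebraMap]; exact hq)
  rcases key with ⟨s, b, hs, hsb⟩ | ⟨s, b, hs, hsb⟩
  · exact ⟨s, b, hs, hsb⟩
  · by_cases hu0 : u = 0
    · exact ⟨1, 0, by simpa using one_not_mem_nonunits A, by simp [hu0]⟩
    · have hsb' : algebraMap (integralClosure ℤ L) L b * u =
          algebraMap (integralClosure ℤ L) L s := by
        rw [← hsb, mul_assoc, inv_mul_cancel₀ hu0, mul_one]
      refine ⟨b, s, fun hb => hs ?_, hsb'⟩
      rw [← hsb', mul_comm]
      exact mul_mem_nonunits A hu hb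

theorem integralClosure_int_le (x : integralClosure ℤ L) : (x : L) ∈ A := by
  have h1 : IsIntegral A (x : L) := x.2.tower_top
  obtain ⟨y, hy⟩ := IsIntegrallyClosed.algebraMap_eq_of_integral h1
  rw [← hy]
  exact y.2

theorem valuation_eq_one_of_not_mem_nonunits {x : L} (hx : x ∈ A) (hx' : x ∉ A.nonunits) :
    A.valuation x = 1 := by
  rw [ValuationSubring.mem_nonunits_iff, not_lt] at hx'
  exact le_antisymm ((ValuationSubring.valuation_le_one_iff A x).mpr hx) hx'

end ValSub

/-- In a field of characteristic zero, every prime number lies under some valuation subring. -/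
theorem exists_liesOverPrime {L : Type*} [Field L] [CharZero L] {ℓ : ℕ} (hℓ : ℓ.Prime) :
    ∃ A : ValuationSubring L, A.LiesOverPrime ℓ := by
  let R : Subring L := (Int.castRingHom L).range
  have hmem : (ℓ : L) ∈ R := ⟨(ℓ : ℤ), by simp⟩
  let I : Ideal R := Ideal.span {⟨(ℓ : L), hmem⟩}
  have hI : I ≠ ⊤ := by
    intro h
    rw [Ideal.eq_top_iff_one, Ideal.mem_span_singleton'] at h
    obtain ⟨⟨c, n, rfl⟩, hc⟩ := h
    have h1 : ((n * ℓ : ℤ) : L) = ((1 : ℤ) : L) := by
      simpa using congrArg Subtype.val hc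
    have h2 : (n * ℓ : ℤ) = 1 := Int.cast_injective h1
    have h3 : IsUnit (ℓ : ℤ) := IsUnit.of_mul_eq_one _ (by rw [mul_comm]; exact h2)
    exact (Nat.prime_iff_prime_int.mp hℓ).not_isUnit h3
  obtain ⟨B, -, hB⟩ := Ideal.image_subset_nonunits_valuationSubring I hI
  exact ⟨B, hB ⟨⟨(ℓ : L), hmem⟩, Ideal.subset_span rfl, rfl⟩⟩

section Gal

variable (K L : Type*) [Field K] [Field L] [Algebra K L]

/-- The action of the Galois group on the ring of all algebraic integers. -/
@[instance_reducible]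
noncomputable def galActIntegralClosure :
    MulSemiringAction (L ≃ₐ[K] L) (integralClosure ℤ L) where
  smul σ x := ⟨σ x, map_isIntegral_int σ x.2⟩
  one_smul _ := Subtype.ext rfl
  mul_smul _ _ _ := Subtype.ext rfl
  smul_zero σ := Subtype.ext (map_zero σ)
  smul_add σ _ _ := Subtype.ext (map_add σ _ _)
  smul_one σ := Subtype.ext (map_one σ)
  smul_mul σ _ _ := Subtype.ext (map_mul σ _ _)

end Gal

/-- The two natural `ℚ`-algebra structures on `AlgebraicClosure ℚ` agree. -/
theorem ratAlgebra_eq :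
    (DivisionRing.toRatAlgebra : Algebra ℚ (AlgebraicClosure ℚ)) = AlgebraicClosure.instAlgebra ℚ :=
  Subsingleton.elim _ _

/-- `AlgebraicClosure ℚ` is an algebraic closure of `ℚ` for the algebra structure
`DivisionRing.toRatAlgebra` (the one found by instance search in the frozen statements). -/
instance isAlgClosure_Qbar : IsAlgClosure ℚ (AlgebraicClosure ℚ) := by
  rw [ratAlgebra_eq]
  infer_instance

section QbarSec

local notation "Qbar" => AlgebraicClosure ℚ
local notation "GQ" => (AlgebraicClosure ℚ ≃ₐ[ℚ] AlgebraicClosure ℚ)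
local notation "Zbar" => integralClosure ℤ (AlgebraicClosure ℚ)

attribute [local instance] galActIntegralClosure

theorem isInvariant_Zbar : Algebra.IsInvariant ℤ Zbar GQ := by
  refine ⟨fun b hb => ?_⟩
  have hmem : (b : Qbar) ∈ (⊥ : IntermediateField ℚ Qbar) := by
    rw [← InfiniteGalois.fixedField_bot (k := ℚ) (K := Qbar)]
    rintro ⟨g, -⟩
    exact congrArg Subtype.val (hb g)
  rw [IntermediateField.mem_bot] at hmem
  obtain ⟨r, hr⟩ := hmem
  have hint : IsIntegral ℤ r := by
    have h1 : IsIntegral ℤ (algebraMap ℚ Qbar r) := hr ▸ b.2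
    exact (isIntegral_algebraMap_iff (algebraMap ℚ Qbar).injective).mp h1
  obtain ⟨a, ha⟩ := IsIntegrallyClosed.algebraMap_eq_of_integral hint
  refine ⟨a, Subtype.ext ?_⟩
  rw [← hr, ← ha]
  simp

/-- Existence of a Galois element congruent to the `ℓ`-power map on all algebraic integers. -/
theorem exists_frob_congr (A : ValuationSubring Qbar) {ℓ : ℕ} (hℓ : ℓ.Prime)
    (hA : (ℓ : Qbar) ∈ A.nonunits) :
    ∃ σ : GQ, ∀ x : Zbar, σ (x : Qbar) - (x : Qbar) ^ ℓ ∈ A.nonunits := by
  have hZA : ∀ x : Zbar, (x : Qbar) ∈ A := integralClosure_int_le A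
  let f : Zbar →+* A := (algebraMap Zbar Qbar).codRestrict A.toSubring hZA
  let Q : Ideal Zbar := (IsLocalRing.maximalIdeal A).comap f
  have hQmem : ∀ x : Zbar, x ∈ Q ↔ (x : Qbar) ∈ A.nonunits := by
    intro x
    rw [Ideal.mem_comap, ← ValuationSubring.coe_mem_nonunits_iff]
    rfl
  let P : Ideal ℤ := Ideal.span {(ℓ : ℤ)}
  have hQprime : Q.IsPrime := Ideal.comap_isPrime f _
  have hQP : Q.LiesOver P := ⟨by
    ext n
    rw [Ideal.mem_span_singleton, Ideal.under_def, Ideal.mem_comap, hQmem,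
      ← int_mem_nonunits_iff A hℓ hA n]
    simp⟩
  have hchar : CharP (Zbar ⧸ Q) ℓ := ⟨fun n => by
    rw [← map_natCast (Ideal.Quotient.mk Q), Ideal.Quotient.eq_zero_iff_mem, hQmem,
      ← Int.natCast_dvd_natCast, ← int_mem_nonunits_iff A hℓ hA n]
    simp⟩
  have : Fact ℓ.Prime := ⟨hℓ⟩
  let frobHom : (Zbar ⧸ Q) →ₐ[ℤ ⧸ P] (Zbar ⧸ Q) :=
    { toRingHom := frobenius (Zbar ⧸ Q) ℓ
      commutes' := fun r => by
        obtain ⟨n, rfl⟩ := Ideal.Quotient.mk_surjective r
        rw [eq_intCast (Ideal.Quotient.mk P) n]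
        simp }
  have hbij : Function.Bijective frobHom := by
    refine ⟨frobenius_inj _ ℓ, fun y => ?_⟩
    obtain ⟨y, rfl⟩ := Ideal.Quotient.mk_surjective y
    obtain ⟨z, hz⟩ := IsAlgClosed.exists_pow_nat_eq (y : Qbar) hℓ.pos
    have hzint : IsIntegral ℤ z := IsIntegral.of_pow hℓ.pos (hz ▸ y.2)
    refine ⟨Ideal.Quotient.mk Q ⟨z, hzint⟩, ?_⟩
    change (Ideal.Quotient.mk Q ⟨z, hzint⟩) ^ ℓ = _
    rw [← map_pow]
    congr 1
    exact Subtype.ext hz
  let frobEquiv : (Zbar ⧸ Q) ≃ₐ[ℤ ⧸ P] (Zbar ⧸ Q) := AlgEquiv.ofBijective frobHom hbij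
  let _ : TopologicalSpace Zbar := ⊥
  have : DiscreteTopology Zbar := ⟨rfl⟩
  have : ContinuousSMul GQ Zbar := continuousSMul_iff_stabilizer_isOpen.mpr fun x => by
    have h : (MulAction.stabilizer GQ x : Set GQ) = MulAction.stabilizer GQ (x : Qbar) := by
      ext g
      simp only [SetLike.mem_coe, MulAction.mem_stabilizer_iff, Subtype.ext_iff]
      rfl
    rw [h]
    exact stabilizer_isOpen_of_isIntegral _
  have := isInvariant_Zbar
  obtain ⟨⟨σ, hσQ⟩, hσ⟩ :=
    Ideal.Quotient.stabilizerHom_surjective_of_profinite (G := GQ) P Q frobEquiv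
  refine ⟨σ, fun x => ?_⟩
  have h1 := congrArg (fun e => e (Ideal.Quotient.mk Q x)) hσ
  have h2 : Ideal.Quotient.mk Q (σ • x) = (Ideal.Quotient.mk Q x) ^ ℓ := h1
  rw [← map_pow, Ideal.Quotient.eq, hQmem] at h2
  exact h2

open scoped Pointwise in
/-- Existence of Frobenius elements in the absolute Galois group of `ℚ`: for every valuation
subring `A` of `AlgebraicClosure ℚ` lying over a prime number `ℓ` there is a Frobenius element
at `A`. -/
theorem exists_isFrobeniusAt (A : ValuationSubring Qbar) {ℓ : ℕ} (hℓ : ℓ.Prime)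
    (hA : A.LiesOverPrime ℓ) : ∃ σ : GQ, A.IsFrobeniusAt σ ℓ := by
  have hA' : (ℓ : Qbar) ∈ A.nonunits := hA
  have hZA : ∀ x : Zbar, (x : Qbar) ∈ A := integralClosure_int_le A
  obtain ⟨σ, hσ⟩ := exists_frob_congr A hℓ hA'
  set v := A.valuation with hv
  have hσ' : ∀ x : Zbar, v (σ (x : Qbar) - (x : Qbar) ^ ℓ) < 1 := fun x =>
    (ValuationSubring.mem_nonunits_iff A).mp (hσ x)
  have hle : ∀ x : Zbar, v (x : Qbar) ≤ 1 := fun x =>
    (ValuationSubring.valuation_le_one_iff A _).mpr (hZA x)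
  have hunit : ∀ s : Zbar, v (s : Qbar) = 1 → v (σ (s : Qbar)) = 1 := by
    intro s hs
    have h1 : v ((s : Qbar) ^ ℓ) = 1 := by rw [map_pow, hs, one_pow]
    have h2 : σ (s : Qbar) = (s : Qbar) ^ ℓ + (σ (s : Qbar) - (s : Qbar) ^ ℓ) := by ring
    rw [h2, Valuation.map_add_eq_of_lt_left _ (by rw [h1]; exact hσ' s), h1]
  have hunit' : ∀ t : Zbar, v (σ (t : Qbar)) = 1 → v (t : Qbar) = 1 := by
    intro t ht
    refine le_antisymm (hle t) (not_lt.mp fun hlt => ?_)
    have h1 : v ((t : Qbar) ^ ℓ) < 1 := by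
      rw [map_pow]
      exact pow_lt_one₀ zero_le hlt hℓ.ne_zero
    have h2 : σ (t : Qbar) = (t : Qbar) ^ ℓ + (σ (t : Qbar) - (t : Qbar) ^ ℓ) := by ring
    have h3 : v (σ (t : Qbar)) < 1 := by
      rw [h2]
      exact lt_of_le_of_lt (Valuation.map_add _ _ _) (max_lt h1 (hσ' t))
    exact absurd ht h3.ne
  have halg : ∀ u : Qbar, IsAlgebraic ℤ u := fun u =>
    (IsFractionRing.isAlgebraic_iff ℤ ℚ Qbar).mpr (Algebra.IsAlgebraic.isAlgebraic u)
  have hfrac : ∀ u ∈ A, ∃ s b : Zbar, v (s : Qbar) = 1 ∧ (s : Qbar) * u = b := by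
    intro u hu
    obtain ⟨s, b, hs, hsb⟩ := exists_integral_mul_eq A hℓ hA' hu (halg u)
    exact ⟨s, b, valuation_eq_one_of_not_mem_nonunits A (hZA s) hs, hsb⟩
  have hmap : ∀ u ∈ A, σ u ∈ A := by
    intro u hu
    obtain ⟨s, b, hs, hsb⟩ := hfrac u hu
    have h1 : σ (s : Qbar) * σ u = σ (b : Qbar) := by rw [← map_mul, hsb]
    have h2 : v (σ u) = v (σ (b : Qbar)) := by
      rw [← h1, map_mul, hunit s hs, one_mul]
    rw [← ValuationSubring.valuation_le_one_iff, ← hv, h2]
    exact hle ⟨σ (b : Qbar), map_isIntegral_int σ b.2⟩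
  have hmap' : ∀ u ∈ A, σ.symm u ∈ A := by
    intro u hu
    obtain ⟨s, b, hs, hsb⟩ := hfrac u hu
    have h1 : σ.symm (s : Qbar) * σ.symm u = σ.symm (b : Qbar) := by rw [← map_mul, hsb]
    have hs' : v (σ.symm (s : Qbar)) = 1 :=
      hunit' ⟨σ.symm (s : Qbar), map_isIntegral_int σ.symm s.2⟩ (by
        change v (σ (σ.symm (s : Qbar))) = 1
        rw [AlgEquiv.apply_symm_apply, hs])
    have h2 : v (σ.symm u) = v (σ.symm (b : Qbar)) := by
      rw [← h1, map_mul, hs', one_mul]
    rw [← ValuationSubring.valuation_le_one_iff, ← hv, h2]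
    exact hle ⟨σ.symm (b : Qbar), map_isIntegral_int σ.symm b.2⟩
  have hdec : σ ∈ A.decompositionSubgroup ℚ := by
    rw [MulAction.mem_stabilizer_iff]
    ext x
    rw [ValuationSubring.mem_pointwise_smul_iff_inv_smul_mem]
    constructor
    · intro hx
      have := hmap _ hx
      rwa [AlgEquiv.smul_def, AlgEquiv.aut_inv, AlgEquiv.apply_symm_apply] at this
    · intro hx
      exact hmap' x hx
  refine ⟨σ, hdec, fun x => ?_⟩
  obtain ⟨a, rfl⟩ := IsLocalRing.residue_surjective x
  have hZ : ∀ z : Zbar, (⟨σ, hdec⟩ : A.decompositionSubgroup ℚ) •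
      IsLocalRing.residue A ⟨(z : Qbar), hZA z⟩ =
        (IsLocalRing.residue A ⟨(z : Qbar), hZA z⟩) ^ ℓ := by
    intro z
    rw [← IsLocalRing.ResidueField.residue_smul, ← map_pow, ← sub_eq_zero, ← map_sub,
      IsLocalRing.residue_eq_zero_iff, ← ValuationSubring.coe_mem_nonunits_iff]
    exact hσ z
  obtain ⟨s, b, hs, hsb⟩ := hfrac (a : Qbar) a.2
  have hsa : (⟨(s : Qbar), hZA s⟩ : A) * a = ⟨(b : Qbar), hZA b⟩ := Subtype.ext hsb
  have hres := congrArg (IsLocalRing.residue A) hsa
  rw [map_mul] at hres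
  have hs0 : IsLocalRing.residue A ⟨(s : Qbar), hZA s⟩ ≠ 0 := by
    rw [Ne, IsLocalRing.residue_eq_zero_iff, ← ValuationSubring.coe_mem_nonunits_iff,
      ValuationSubring.mem_nonunits_iff]
    exact (hs.symm ▸ lt_irrefl _ : ¬ v (s : Qbar) < 1)
  have h1 := congrArg (fun y => (⟨σ, hdec⟩ : A.decompositionSubgroup ℚ) • y) hres
  simp only [smul_mul'] at h1
  rw [hZ s, hZ b, ← hres, mul_pow] at h1
  exact mul_left_cancel₀ (pow_ne_zero ℓ hs0) h1

end QbarSec

end Fermat.Agent.S54
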