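-- Statement S13: if the mod-`p` representation of the Frey curve is reducible, it has a
-- Galois-stable line with trivial action on the quotient.
-- Assembly: `Fermat.Agent.S13.hasCofixedLine_of_local` (MainAbs) from
--   the count `card E[p] = p ^ 2` (S05/CountFinal), the global inertia statement (S13/Global),
--   the local analysis at `2` (S13/L2Alt), at odd `q ≠ p` (S05) and at `p` (S13/Lp).
import Fermat.Statements.S13
import Fermat.Agent.S05
import Fermat.Agent.S05.CountFinal
import Fermat.Agent.S13.MainAbs
import Fermat.Agent.S13.Global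
import Fermat.Agent.S13.L2Alt
import Fermat.Agent.S13.Lp

set_option autoImplicit false
open WeierstrassCurve WeierstrassCurve.Affine WeierstrassCurve.Affine.Point
open CuspForm ModularFormClass UpperHalfPlane
open FreyPackage

namespace Fermat.Agent.S13

theorem result (P : FreyPackage) (hred : ¬ GaloisRepIsIrreducible (K := AlgebraicClosure ℚ) ℚ P.freyCurve P.p) : HasGaloisStableCofixedLine (K := AlgebraicClosure ℚ) ℚ P.freyCurve P.p := by
  have hcard : Nat.card (Submodule.torsionBy ℤ (P.freyCurve⁄(AlgebraicClosure ℚ)).Point P.p)
      = P.p ^ 2 := Fermat.Agent.S05.natCard_torsionBy_freyCurve P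
  exact hasCofixedLine_of_local P hcard
    (fun H hn ho hne => @exists_inertia_not_mem H hn ho hne)
    (fun N hN h0 h1 => L2Alt.l2a P hcard N hN h0 h1)
    (fun N hN h0 h1 => L2Alt.l2b P hcard N hN h0 h1)
    (fun q hq h2 hp => Fermat.Agent.S05.result P hq h2 hp)
    (fun N hN h0 h1 => lp P hcard N hN h0 h1)
    hred

end Fermat.Agent.S13
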