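-- Statement S14: the Ext-vanishing property `ExtVanishingCts p` for primes `p ≥ 3`
-- (no admissible extension of `ℤ/p` by `μ_p`; Herbrand-type theorem via Stickelberger / Jacobi
-- sums and the reciprocity law for unramified cyclic extensions of `ℚ(ζ_p)`).
import Fermat.Statements.S14
import Fermat.Agent.S14.Front
import Fermat.Agent.S14.Core

set_option autoImplicit false
open ExtCitation

namespace Fermat.Agent.S14

theorem result {p : ℕ} [Fact p.Prime] (h3 : 3 ≤ p) :
    ExtCitation.ExtVanishingCts p :=
  Front.front_end h3 (fun K L _ _ _ _ _ _ _ _ hdeg hunr hsplit hact =>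
    core p h3 K L hdeg hunr hsplit hact)

end Fermat.Agent.S14
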