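-- Statement S22 (row 21): `Module.Finite ℤ (CuspForm.heckeAlgebra N k S)` for all `N`, `k`, `S`.
-- The statement below is byte-identical to the frozen statement CuspForm.FermatFrozen.S22
-- (Fermat/Statements/S22.lean; the theorem CuspForm.moduleFinite_heckeAlgebra).
-- Proof: weights `k ≤ 0` and odd `k` are trivial (no cusp forms); for `k = n + 2` the lattice of
-- modular symbols in the dual of the space of cusp forms is finitely generated, Hecke stable and
-- separates points.
import Fermat.Statements.S22
import Fermat.Agent.S22.LatFG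
import Fermat.Agent.S22.LatHecke
import Fermat.Agent.S22.LatSep
import Fermat.Agent.S22.LatticeAlgebra

set_option autoImplicit false
open CuspForm

namespace Fermat.Agent.S22

/-- Finiteness of the Hecke algebra in weight `n + 2`, via the lattice of modular symbols. -/
theorem finite_heckeAlgebra_add_two (N : ℕ) [NeZero N] (n : ℕ) (S : Set ℕ) :
    Module.Finite ℤ (CuspForm.heckeAlgebra N ((n : ℤ) + 2) S) :=
  finite_heckeAlgebra_of_stable_lattice N ((n : ℤ) + 2) S (symL N n) (symL_fg N n)
    (symL_sep N n)
    (fun _ hℓ hℓN _ φ hφ => symL_heckeT N n hℓ hℓN φ hφ)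
    (fun _ hqN hq _ φ hφ => symL_heckeU N n hq hqN φ hφ)

theorem result (N : ℕ) [NeZero N] (k : ℤ) (S : Set ℕ) :
    Module.Finite ℤ (CuspForm.heckeAlgebra N k S) := by
  rcases le_or_gt k 0 with hk | hk
  · exact finite_heckeAlgebra_of_weight_nonpos hk S
  · rcases eq_or_lt_of_le (show (1 : ℤ) ≤ k by omega) with hk1 | hk1
    · exact finite_heckeAlgebra_of_odd (hk1 ▸ odd_one) S
    · obtain ⟨n, rfl⟩ : ∃ n : ℕ, k = (n : ℤ) + 2 := ⟨(k - 2).toNat, by omega⟩
      exact finite_heckeAlgebra_add_two N n S

end Fermat.Agent.S22
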