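-- Statement S23 (row 22): `CuspForm.HasIntegralStructure N 2` for all `N`.
-- The statement below is byte-identical to the frozen statement CuspForm.FermatFrozen.S23
-- (Fermat/Statements/S23.lean; the theorem CuspForm.hasIntegralStructure_two).
-- Proof: Galois descent for `Aut ℂ` (Descent) + bounded denominators from the finiteness of the
-- Hecke algebra (BoundedDenom) reduce the statement to the conjugation property: for every ring
-- automorphism `σ` of `ℂ` and every `f ∈ S₂(Γ₀(N))` there is `g ∈ S₂(Γ₀(N))` with `σ`-conjugate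
-- `q`-expansion (CosetConjFinal, with the separator `E₄(Nτ)`).
import Fermat.Statements.S23
import Fermat.Agent.S23.Reduce
import Fermat.Agent.S23.Separator
import Fermat.Agent.S23.CosetConjFinal

set_option autoImplicit false
open CuspForm

namespace Fermat.Agent.S23

/-- (P3) The space `S₂(Γ₀(N))` is stable under conjugation of `q`-expansions by ring
automorphisms of `ℂ`. -/
theorem exists_cuspForm_conj (N : ℕ) [NeZero N] (σ : ℂ ≃+* ℂ)
    (f : CuspForm (CongruenceSubgroup.Gamma0 N) 2) :
    ∃ g : CuspForm (CongruenceSubgroup.Gamma0 N) 2,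
      ∀ n : ℕ, ModularFormClass.qCoeff g n = σ (ModularFormClass.qCoeff f n) := by
  obtain ⟨g, hg⟩ := exists_isConj_of_separator (σ : ℂ →+* ℂ) (sepForm N)
    (IsConj.of_rat _ (Nice.of_Gamma0 (sepForm N)) (sepForm_qExpansion_rat N))
    (sepForm_slash_ne N) f
  exact ⟨g, fun n => hg.coeff n⟩

theorem result (N : ℕ) [NeZero N] : CuspForm.HasIntegralStructure N 2 :=
  hasIntegralStructure_of_conj N (exists_cuspForm_conj N)

end Fermat.Agent.S23
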