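-- Statement S16 (row 15): the Eisenstein quotient of the Hecke algebra of prime level `p`
-- has order `(p - 1) / gcd(p - 1, 12)`.
import Fermat.Statements.S16
import Fermat.Agent.S16.Pre
import Fermat.Agent.S16.FreeProdLift

set_option autoImplicit false
open ModularCurve CuspForm
open ModularCurve

namespace Fermat.Agent.S16

theorem result
    (p : ℕ) [Fact p.Prime] :
    Nat.card (↥(heckeLatticeAlgebra p ∅) ⧸
        Ideal.map ((latticeRestrictHom p ∅).toRingHom.comp (heckeEvalForms p 2))
          (eisensteinIdeal p)) =
      eisensteinNumerator p :=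
  Pre.main p (FreeProd.lift p)

end Fermat.Agent.S16
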