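-- Statement S18 (row 17).  The statement below is byte-identical to the frozen statement
-- ModularCurve.FermatFrozen.S18 (Fermat/Statements/S18.lean; the theorem
-- ModularCurve.eq_zero_of_reductionModL_eq_zero_of_nsmul_eq_zero).
--
-- Proof (route M): Kummer theory on the function field of X₀(M), M = lcm(M₀, N) with
-- M₀ = 4 (ℓ odd) or 9 (ℓ = 2), through the Gauss reduction of F_M to its residue function field
-- κ_M = k(j̄, ū_M), the equality of genera of F_M and κ_M (Riemann–Hurwitz inequality over the
-- genus-zero level M₀ and the cusp count mod ℓ), a two-chart Riemann–Roch argument, and descent of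
-- roots from level M to level N.  See `Fermat/Agent/S18/Close.lean` for the assembly.
import Fermat.Statements.S18
import Fermat.Agent.S18.Close
import Fermat.Agent.S18.GaussQ
import Fermat.Agent.S18.HKappa

set_option autoImplicit false
set_option synthInstance.maxHeartbeats 400000
open ModularCurve

namespace Fermat.Agent.S18

theorem result (N : ℕ) [NeZero N] {ℓ : ℕ}
    [Fact ℓ.Prime] (hℓN : ¬ ℓ ∣ N) (A : ValuationSubring (AlgebraicClosure ℚ)) (hA : A.LiesOverPrime ℓ)
    (h : ModularCurve.ReductionInputsModL A N) (m : ℕ) (hm : ¬ ℓ ∣ m) (z : ModularCurve.JZero N)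
    (hmz : m • z = 0) (hz : ModularCurve.reductionModL A N z = 0) :
    z = 0 := by
  have hℓ : ℓ.Prime := Fact.out
  have hκ0 := HKappa.main hℓ (LevelNum.not_dvd_M0 hℓ) A hA
  have hκM := HKappa.main hℓ (LevelNum.not_dvd_levelM hℓ hℓN) A hA
  have h0 : Close.Layer A (LevelNum.M0 ℓ) := ⟨_, GaussQ.redFacts hκ0, GaussQ.hint hκ0⟩
  have hM : Close.Layer A (LevelNum.levelM ℓ N) := ⟨_, GaussQ.redFacts hκM, GaussQ.hint hκM⟩
  exact Close.main hℓ hℓN A hA h0 hM h m hm z hmz hz

end Fermat.Agent.S18
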