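import Fermat.Agent.S22_Poly

set_option autoImplicit false

open Complex Filter Topology MvPolynomial
open UpperHalfPlane hiding I
open scoped Real Manifold ModularForm

namespace Fermat.Agent.S22

theorem hasDerivH_of_complex {g : ℂ → ℂ} {g' : ℍ → ℂ} (h : ∀ τ : ℍ, HasDerivAt g (g' τ) τ) :
    HasDerivH (fun τ : ℍ => g τ) g' := by
  intro τ
  refine (h τ).congr_of_eventuallyEq ?_
  filter_upwards [isOpen_upperHalfPlaneSet.mem_nhds τ.im_pos] with z hz
  simp [ofComplex_apply_of_im_pos hz]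

theorem HasDerivH.mul {F f G g : ℍ → ℂ} (h : HasDerivH F f) (h' : HasDerivH G g) :
    HasDerivH (fun τ => F τ * G τ) (fun τ => f τ * G τ + F τ * g τ) := by
  intro τ
  have h1 : HasDerivAt (fun z : ℂ => F (ofComplex z) * G (ofComplex z))
      (f τ * (G ∘ ofComplex) (τ : ℂ) + (F ∘ ofComplex) (τ : ℂ) * g τ) (τ : ℂ) := (h τ).mul (h' τ)
  simp only [Function.comp_apply, ofComplex_apply] at h1
  exact h1

theorem HasDerivH.sub {F f F' f' : ℍ → ℂ} (h : HasDerivH F f) (h' : HasDerivH F' f') :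
    HasDerivH (fun τ => F τ - F' τ) (fun τ => f τ - f' τ) := fun τ => (h τ).sub (h' τ)

theorem HasDerivH.add' {F f F' f' : ℍ → ℂ} (h : HasDerivH F f) (h' : HasDerivH F' f') :
    HasDerivH (fun τ => F τ + F' τ) (fun τ => f τ + f' τ) := fun τ => (h τ).add (h' τ)

theorem HasDerivH.congr_deriv {F f f' : ℍ → ℂ} (h : HasDerivH F f) (e : ∀ τ, f τ = f' τ) :
    HasDerivH F f' := fun τ => (h τ).congr_deriv (e τ)

theorem hasDerivH_const (c : ℂ) : HasDerivH (fun _ => c) (fun _ => 0) :=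
  fun τ => by simpa [Function.comp_def] using hasDerivAt_const (τ : ℂ) c

theorem hasDerivH_linpow (x y : ℂ) (e : ℕ) :
    HasDerivH (fun τ : ℍ => (x - (τ : ℂ) * y) ^ e)
      (fun τ : ℍ => (e : ℂ) * (x - (τ : ℂ) * y) ^ (e - 1) * (-y)) := by
  refine hasDerivH_of_complex (g := fun z : ℂ => (x - z * y) ^ e) fun τ => ?_
  have h1 : HasDerivAt (fun z : ℂ => x - z * y) (-y) (τ : ℂ) := by
    have h0 : HasDerivAt (fun z : ℂ => x - z * y) (-(1 * y)) (τ : ℂ) :=
      ((hasDerivAt_id (τ : ℂ)).mul_const y).const_sub x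
    rw [one_mul] at h0
    exact h0
  have h2 : HasDerivAt (fun z : ℂ => (x - z * y) ^ e)
      ((e : ℂ) * (x - (τ : ℂ) * y) ^ (e - 1) * (-y)) (τ : ℂ) := h1.pow e
  exact h2

/-- The normalised polynomial-valued primitive of `ψ(τ) (X - τ Y)^n`. -/
noncomputable def EE (n : ℕ) (ψ : ℍ → ℂ) (τ : ℍ) : MvPolynomial (Fin 2) ℂ :=
  ∑ m ∈ Finset.range (n + 1),
    C ((n.descFactorial m : ℂ) * prim^[m + 1] ψ τ) * X 1 ^ m * (X 0 - C (τ : ℂ) * X 1) ^ (n - m)

theorem eval_EE (n : ℕ) (ψ : ℍ → ℂ) (τ : ℍ) (v : Fin 2 → ℂ) :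
    eval v (EE n ψ τ) = ∑ m ∈ Finset.range (n + 1),
      (n.descFactorial m : ℂ) * prim^[m + 1] ψ τ * v 1 ^ m * (v 0 - (τ : ℂ) * v 1) ^ (n - m) := by
  simp [EE, map_sum]

theorem primP_EE_aux {n : ℕ} {ψ : ℍ → ℂ} (h : Dec ψ) (x y : ℂ) (N : ℕ) (hN : N ≤ n + 1) :
    HasDerivH (fun τ => ∑ m ∈ Finset.range N,
        (n.descFactorial m : ℂ) * prim^[m + 1] ψ τ * y ^ m * (x - (τ : ℂ) * y) ^ (n - m))
      (fun τ => ψ τ * (x - (τ : ℂ) * y) ^ n -
        (n.descFactorial N : ℂ) * prim^[N] ψ τ * y ^ N * (x - (τ : ℂ) * y) ^ (n - N)) := by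
  induction N with
  | zero =>
    simp only [Finset.range_zero, Finset.sum_empty, Nat.descFactorial_zero, Nat.cast_one,
      Function.iterate_zero, id_eq, pow_zero, Nat.sub_zero, one_mul, mul_one, sub_self]
    exact hasDerivH_const 0
  | succ N ih =>
    have hNn : N ≤ n := Nat.le_of_succ_le_succ hN
    have ih' := ih (Nat.le_succ_of_le hNn)
    have hΦ : HasDerivH (prim^[N + 1] ψ) (prim^[N] ψ) := by
      rw [Function.iterate_succ_apply']
      exact (h.iterate_prim N).hasDerivH_prim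
    have hT := (((hΦ.const_mul (n.descFactorial N : ℂ)).mul (hasDerivH_const (y ^ N))).mul
      (hasDerivH_linpow x y (n - N)))
    have hsum := ih'.add' hT
    have e : (fun τ => ∑ m ∈ Finset.range (N + 1),
        (n.descFactorial m : ℂ) * prim^[m + 1] ψ τ * y ^ m * (x - (τ : ℂ) * y) ^ (n - m)) =
        fun τ => (∑ m ∈ Finset.range N,
          (n.descFactorial m : ℂ) * prim^[m + 1] ψ τ * y ^ m * (x - (τ : ℂ) * y) ^ (n - m)) +
          (n.descFactorial N : ℂ) * prim^[N + 1] ψ τ * y ^ N * (x - (τ : ℂ) * y) ^ (n - N) := by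
      funext τ
      rw [Finset.sum_range_succ]
    rw [e]
    refine hsum.congr_deriv fun τ => ?_
    have hc : (n.descFactorial (N + 1) : ℂ) = ((n - N : ℕ) : ℂ) * (n.descFactorial N : ℂ) := by
      rw [Nat.descFactorial_succ]; push_cast; ring
    have hsub : n - (N + 1) = n - N - 1 := by omega
    rw [hc, hsub, pow_succ]
    ring

theorem primP_EE {n : ℕ} {ψ : ℍ → ℂ} (h : Dec ψ) : PrimP n (EE n ψ) ψ := by
  intro v
  have h1 := primP_EE_aux (n := n) h (v 0) (v 1) (n + 1) le_rfl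
  have e : (fun τ => eval v (EE n ψ τ)) = fun τ => ∑ m ∈ Finset.range (n + 1),
      (n.descFactorial m : ℂ) * prim^[m + 1] ψ τ * v 1 ^ m * (v 0 - (τ : ℂ) * v 1) ^ (n - m) := by
    funext τ; exact eval_EE n ψ τ v
  rw [e]
  refine h1.congr_deriv fun τ => ?_
  rw [Nat.descFactorial_of_lt (Nat.lt_succ_self n)]
  simp

/-- The embedding `GL₂(ℚ) → GL₂(ℝ)`. -/
noncomputable abbrev rmap : GL (Fin 2) ℚ →* GL (Fin 2) ℝ :=
  Matrix.GeneralLinearGroup.map (Rat.castHom ℝ)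

end Fermat.Agent.S22
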