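import Fermat.Agent.S22_Symbol
import Fermat.Agent.S22.DecCusp
import Fermat.Agent.S22.Chain
import Fermat.Agent.S22.Separation

set_option autoImplicit false

open Complex Filter Topology MvPolynomial
open UpperHalfPlane hiding I
open scoped Real Manifold ModularForm MatrixGroups

namespace Fermat.Agent.S22

theorem cc_cuspForm {N : ℕ} [NeZero N] {k : ℤ} (f : CuspForm (CongruenceSubgroup.Gamma0 N) k) :
    Cc k ⇑f :=
  fun δ _ => dec_slash_cuspForm f δ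

/-- The functional `f ↦ (Lam n f δ δ')(v)` on cusp forms of weight `n + 2`. -/
noncomputable def mu (N : ℕ) [NeZero N] (n : ℕ) (δ δ' : GL (Fin 2) ℚ) (hδ : 0 < δ.det.val)
    (hδ' : 0 < δ'.det.val) (v : Fin 2 → ℤ) :
    Module.Dual ℂ (CuspForm (CongruenceSubgroup.Gamma0 N) ((n : ℤ) + 2)) where
  toFun f := eval (fun i => (v i : ℂ)) (Lam n ⇑f δ δ')
  map_add' f g := by
    rw [FunLike.coe_add, Lam_add_left (cc_cuspForm f) (cc_cuspForm g) hδ hδ', map_add]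
  map_smul' c f := by
    rw [FunLike.coe_smul, Lam_const_smul (cc_cuspForm f) c hδ hδ', smul_eval, RingHom.id_apply,
      smul_eq_mul]

theorem mu_apply (N : ℕ) [NeZero N] (n : ℕ) (δ δ' : GL (Fin 2) ℚ) (hδ : 0 < δ.det.val)
    (hδ' : 0 < δ'.det.val) (v : Fin 2 → ℤ)
    (f : CuspForm (CongruenceSubgroup.Gamma0 N) ((n : ℤ) + 2)) :
    mu N n δ δ' hδ hδ' v f = eval (fun i => (v i : ℂ)) (Lam n ⇑f δ δ') := rfl

/-- The lattice of modular symbols. -/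
noncomputable def symL (N : ℕ) [NeZero N] (n : ℕ) :
    Submodule ℤ (Module.Dual ℂ (CuspForm (CongruenceSubgroup.Gamma0 N) ((n : ℤ) + 2))) :=
  Submodule.span ℤ {μ | ∃ (δ δ' : GL (Fin 2) ℚ) (hδ : 0 < δ.det.val) (hδ' : 0 < δ'.det.val)
    (v : Fin 2 → ℤ), μ = mu N n δ δ' hδ hδ' v}

theorem mu_mem_symL (N : ℕ) [NeZero N] (n : ℕ) (δ δ' : GL (Fin 2) ℚ) (hδ : 0 < δ.det.val)
    (hδ' : 0 < δ'.det.val) (v : Fin 2 → ℤ) : mu N n δ δ' hδ hδ' v ∈ symL N n :=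
  Submodule.subset_span ⟨δ, δ', hδ, hδ', v, rfl⟩

end Fermat.Agent.S22
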