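import Fermat.Agent.S22_Prim2

set_option autoImplicit false

open Complex Filter Topology MvPolynomial
open UpperHalfPlane hiding I
open scoped Real Manifold ModularForm

namespace Fermat.Agent.S22

/-- The linear action of a real matrix on complex points of the plane. -/
def mulVecC (γ : GL (Fin 2) ℝ) (v : Fin 2 → ℂ) : Fin 2 → ℂ :=
  fun i => ((γ i 0 : ℝ) : ℂ) * v 0 + ((γ i 1 : ℝ) : ℂ) * v 1

/-- Linear substitution in a polynomial in two variables. -/
noncomputable def subst (γ : GL (Fin 2) ℝ) :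
    MvPolynomial (Fin 2) ℂ →ₐ[ℂ] MvPolynomial (Fin 2) ℂ :=
  aeval (fun i : Fin 2 => C ((γ i 0 : ℝ) : ℂ) * X 0 + C ((γ i 1 : ℝ) : ℂ) * X 1)

theorem eval_subst (γ : GL (Fin 2) ℝ) (v : Fin 2 → ℂ) (P : MvPolynomial (Fin 2) ℂ) :
    eval v (subst γ P) = eval (mulVecC γ v) P := by
  induction P using MvPolynomial.induction_on with
  | C a => simp [subst]
  | add p q hp hq => simp [hp, hq]
  | mul_X p i hp =>
    rw [map_mul, map_mul, map_mul, hp]
    congr 1
    simp [subst, mulVecC]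

theorem mulVecC_mul (γ γ' : GL (Fin 2) ℝ) (v : Fin 2 → ℂ) :
    mulVecC (γ * γ') v = mulVecC γ (mulVecC γ' v) := by
  funext i
  simp only [mulVecC, Units.val_mul, Matrix.mul_apply, Fin.sum_univ_two]
  push_cast
  ring

theorem mulVecC_one (v : Fin 2 → ℂ) : mulVecC 1 v = v := by
  funext i
  fin_cases i <;> simp [mulVecC]

theorem subst_subst (γ γ' : GL (Fin 2) ℝ) (P : MvPolynomial (Fin 2) ℂ) :
    subst γ' (subst γ P) = subst (γ * γ') P := by
  apply MvPolynomial.funext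
  intro v
  rw [eval_subst, eval_subst, eval_subst, mulVecC_mul]

theorem subst_one (P : MvPolynomial (Fin 2) ℂ) : subst 1 P = P := by
  apply MvPolynomial.funext
  intro v
  rw [eval_subst, mulVecC_one]

/-- The right action of matrices on polynomial valued functions on `ℍ`. -/
noncomputable def act (γ : GL (Fin 2) ℝ) (G : ℍ → MvPolynomial (Fin 2) ℂ) :
    ℍ → MvPolynomial (Fin 2) ℂ :=
  fun τ => subst γ (G (γ • τ))

theorem act_act (γ γ' : GL (Fin 2) ℝ) (G : ℍ → MvPolynomial (Fin 2) ℂ) :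
    act γ' (act γ G) = act (γ * γ') G := by
  funext τ
  simp only [act, subst_subst, mul_smul]

theorem act_one (G : ℍ → MvPolynomial (Fin 2) ℂ) : act 1 G = G := by
  funext τ
  simp only [act, subst_one, one_smul]

/-- `G` is a primitive of `ψ(τ) (X - τ Y)^n`. -/
def PrimP (n : ℕ) (G : ℍ → MvPolynomial (Fin 2) ℂ) (ψ : ℍ → ℂ) : Prop :=
  ∀ v : Fin 2 → ℂ, HasDerivH (fun τ => eval v (G τ)) (fun τ => ψ τ * (v 0 - (τ : ℂ) * v 1) ^ n)

theorem PrimP.act {n : ℕ} {G : ℍ → MvPolynomial (Fin 2) ℂ} {ψ : ℍ → ℂ} (h : PrimP n G ψ)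
    (γ : GL (Fin 2) ℝ) (hγ : 0 < γ.det.val) :
    PrimP n (act γ G) (ψ ∣[(n : ℤ) + 2] γ) := by
  intro v τ
  have h1 := (h (mulVecC γ v)).comp_smul γ hγ τ
  have e : (fun τ => eval v (Fermat.Agent.S22.act γ G τ)) =
      fun τ => eval (mulVecC γ v) (G (γ • τ)) := by
    funext τ; simp only [Fermat.Agent.S22.act, eval_subst]
  rw [e]
  refine h1.congr_deriv ?_
  have hD : denom γ τ ≠ 0 := denom_ne_zero γ τ
  have hdet : ((γ.val.det : ℝ) : ℂ) =
      ((γ 0 0 : ℝ) : ℂ) * ((γ 1 1 : ℝ) : ℂ) - ((γ 0 1 : ℝ) : ℂ) * ((γ 1 0 : ℝ) : ℂ) := by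
    rw [Matrix.det_fin_two]; push_cast; rfl
  have hdet' : γ.val.det = γ.det.val := rfl
  beta_reduce
  rw [ModularForm.slash_apply, UpperHalfPlane.σ, if_pos hγ, ContinuousAlgEquiv.refl_apply,
    abs_of_pos hγ, coe_smul_of_det_pos hγ]
  have hk : ((n : ℤ) + 2 - 1) = ((n + 1 : ℕ) : ℤ) := by push_cast; ring
  have hk2 : (-((n : ℤ) + 2)) = -((n + 2 : ℕ) : ℤ) := by push_cast; ring
  rw [hk, hk2, zpow_natCast, zpow_neg, zpow_natCast, ← hdet']
  have key : mulVecC γ v 0 - num γ τ / denom γ τ * mulVecC γ v 1 =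
      ((γ.val.det : ℝ) : ℂ) * (v 0 - (τ : ℂ) * v 1) / denom γ τ := by
    rw [eq_div_iff hD, sub_mul,
      show num γ τ / denom γ τ * mulVecC γ v 1 * denom γ τ = num γ τ * mulVecC γ v 1 by
        field_simp, hdet]
    simp only [mulVecC, num, denom]
    ring
  rw [key, div_pow, mul_pow]
  field_simp
  ring

end Fermat.Agent.S22
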