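import Mathlib

set_option autoImplicit false

open Complex Filter Topology
open UpperHalfPlane hiding I
open scoped Real Manifold

namespace Fermat.Agent.S22

local notation "𝕢" => Function.Periodic.qParam

/-- `F` has complex derivative `f` on the upper half plane. -/
def HasDerivH (F f : ℍ → ℂ) : Prop :=
  ∀ τ : ℍ, HasDerivAt (F ∘ ofComplex) (f τ) (τ : ℂ)

/-- Holomorphic on `ℍ`, vanishing at `i∞`, periodic with a positive integer period. -/
structure Dec (φ : ℍ → ℂ) : Prop where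
  holo : MDifferentiable 𝓘(ℂ) 𝓘(ℂ) φ
  zero : IsZeroAtImInfty φ
  per : ∃ w : ℕ, 0 < w ∧ Function.Periodic (φ ∘ ofComplex) ((w : ℝ) : ℂ)

theorem HasDerivH.mdifferentiable {F f : ℍ → ℂ} (h : HasDerivH F f) :
    MDifferentiable 𝓘(ℂ) 𝓘(ℂ) F :=
  UpperHalfPlane.mdifferentiable_iff.mpr fun z hz =>
    (h ⟨z, hz⟩).differentiableAt.differentiableWithinAt

theorem hasDerivAt_qParam (h : ℝ) (z : ℂ) :
    HasDerivAt (𝕢 h) (𝕢 h z * (2 * π * I / h)) z := by
  have := (((hasDerivAt_id z).const_mul (2 * π * I)).div_const (h : ℂ)).cexp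
  simp only [id_eq, mul_one] at this
  exact this

theorem qParam_add_period {h : ℝ} (hh : h ≠ 0) (z : ℂ) : 𝕢 h (z + h) = 𝕢 h z := by
  have hh' : (h : ℂ) ≠ 0 := by exact_mod_cast hh
  simp only [Function.Periodic.qParam]
  rw [show 2 * π * I * (z + h) / h = 2 * π * I * z / h + 2 * π * I by field_simp]
  exact Complex.exp_periodic _

theorem exists_prim_aux {φ : ℍ → ℂ} (hholo : MDifferentiable 𝓘(ℂ) 𝓘(ℂ) φ)
    (hzero : IsZeroAtImInfty φ) {hh : ℝ} (hh0 : 0 < hh)
    (hper : Function.Periodic (φ ∘ ofComplex) (hh : ℂ)) :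
    ∃ F : ℍ → ℂ, HasDerivH F φ ∧ IsZeroAtImInfty F ∧
      Function.Periodic (F ∘ ofComplex) (hh : ℂ) := by
  set G : ℂ → ℂ := cuspFunction hh φ with hGdef
  have hG : DifferentiableOn ℂ G (Metric.ball 0 1) :=
    differentiableOn_cuspFunction_ball hh0 hper hholo hzero.isBoundedAtImInfty
  have hG0 : G 0 = 0 :=
    Function.Periodic.cuspFunction_zero_of_zero_at_inf hh0
      (hzero.comp tendsto_comap_im_ofComplex)
  have hK : DifferentiableOn ℂ (dslope G 0) (Metric.ball 0 1) :=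
    (differentiableOn_dslope (Metric.ball_mem_nhds 0 one_pos)).mpr hG
  obtain ⟨G₁, hG₁0, hG₁⟩ := (hK.isExactOn_ball).with_val_at 0 0
  set c : ℂ := hh / (2 * π * I) with hc
  have hderiv : HasDerivH (fun τ : ℍ => c * G₁ (𝕢 hh τ)) φ := by
    intro τ
    have e : (fun τ' : ℍ => c * G₁ (𝕢 hh τ')) ∘ ofComplex =ᶠ[𝓝 (τ : ℂ)]
        fun z => c * G₁ (𝕢 hh z) := by
      filter_upwards [isOpen_upperHalfPlaneSet.mem_nhds τ.im_pos] with z hz
      simp [ofComplex_apply_of_im_pos hz]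
    have hqn : 𝕢 hh τ ∈ Metric.ball (0 : ℂ) 1 := by
      simpa using Function.Periodic.norm_qParam_lt_one hh0 τ.im_pos
    have hq0 : 𝕢 hh τ ≠ 0 := Function.Periodic.qParam_ne_zero _
    have h1 := ((hG₁ _ hqn).comp (τ : ℂ) (hasDerivAt_qParam hh τ)).const_mul c
    refine (h1.congr_of_eventuallyEq e).congr_deriv ?_
    rw [dslope_of_ne _ hq0, slope_def_field, hG0, sub_zero, sub_zero, hGdef,
      eq_cuspFunction τ hh0.ne' hper, hc]
    have hh' : (hh : ℂ) ≠ 0 := by exact_mod_cast hh0.ne'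
    have hpi : (2 * π * I : ℂ) ≠ 0 := Complex.two_pi_I_ne_zero
    field_simp
  refine ⟨fun τ : ℍ => c * G₁ (𝕢 hh τ), hderiv, ?_, ?_⟩
  · have hcont : ContinuousAt G₁ 0 := (hG₁ 0 (Metric.mem_ball_self one_pos)).continuousAt
    have h2 : Tendsto (fun τ : ℍ => G₁ (𝕢 hh τ)) atImInfty (𝓝 (G₁ 0)) :=
      hcont.tendsto.comp (qParam_tendsto_atImInfty hh0)
    have h3 := h2.const_mul c
    rw [hG₁0, mul_zero] at h3
    exact h3
  · intro z
    by_cases hz : 0 < z.im
    · have hz' : 0 < (z + (hh : ℂ)).im := by simpa using hz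
      simp only [Function.comp_apply, ofComplex_apply_of_im_pos hz', ofComplex_apply_of_im_pos hz]
      have := qParam_add_period hh0.ne' z
      rw [← this]
    · have hz1 : z.im ≤ 0 := not_lt.mp hz
      have hz' : (z + (hh : ℂ)).im ≤ 0 := by simpa using hz1
      simp only [Function.comp_apply]
      rw [ofComplex_apply_eq_of_im_nonpos hz' hz1]

theorem Dec.exists_prim {φ : ℍ → ℂ} (h : Dec φ) : ∃ F : ℍ → ℂ, Dec F ∧ HasDerivH F φ := by
  obtain ⟨w, hw, hper⟩ := h.per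
  have hh0 : (0 : ℝ) < (w : ℝ) := by exact_mod_cast hw
  obtain ⟨F, hF, hz, hp⟩ := exists_prim_aux h.holo h.zero hh0 hper
  exact ⟨F, ⟨hF.mdifferentiable, hz, ⟨w, hw, hp⟩⟩, hF⟩

/-- Two primitives on `ℍ` which both vanish at `i∞` agree. -/
theorem eq_of_hasDerivH {F F' f : ℍ → ℂ} (h : HasDerivH F f) (h' : HasDerivH F' f)
    (z : IsZeroAtImInfty F) (z' : IsZeroAtImInfty F') : F = F' := by
  have hdiff : DifferentiableOn ℂ (F ∘ ofComplex - F' ∘ ofComplex) {z : ℂ | 0 < z.im} :=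
    fun z hz => ((h ⟨z, hz⟩).sub (h' ⟨z, hz⟩)).differentiableAt.differentiableWithinAt
  have hconv : Convex ℝ {z : ℂ | 0 < z.im} := convex_halfSpace_im_gt 0
  have hzero : Set.EqOn (fderiv ℂ (F ∘ ofComplex - F' ∘ ofComplex)) 0 {z : ℂ | 0 < z.im} := by
    intro z hz
    have := ((h ⟨z, hz⟩).sub (h' ⟨z, hz⟩)).hasFDerivAt.fderiv
    simpa using this
  have hconst : ∀ τ τ' : ℍ, F τ - F' τ = F τ' - F' τ' := by
    intro τ τ'
    have := isOpen_upperHalfPlaneSet.is_const_of_fderiv_eq_zero hconv.isPreconnected hdiff hzero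
      τ.im_pos τ'.im_pos
    simpa using this
  have hlim : Tendsto (fun τ : ℍ => F τ - F' τ) atImInfty (𝓝 0) := by
    simpa using z.sub z'
  have hc : Tendsto (fun _ : ℍ => F UpperHalfPlane.I - F' UpperHalfPlane.I) atImInfty (𝓝 0) :=
    hlim.congr fun τ => hconst τ _
  have h0 : F UpperHalfPlane.I - F' UpperHalfPlane.I = 0 :=
    tendsto_nhds_unique tendsto_const_nhds hc
  funext τ
  have := hconst τ UpperHalfPlane.I
  rw [h0, sub_eq_zero] at this
  exact this

open Classical in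
/-- The primitive vanishing at `i∞` of a decaying periodic holomorphic function. -/
noncomputable def prim (φ : ℍ → ℂ) : ℍ → ℂ :=
  if h : Dec φ then Classical.choose h.exists_prim else 0

theorem Dec.dec_prim {φ : ℍ → ℂ} (h : Dec φ) : Dec (prim φ) := by
  rw [prim, dif_pos h]
  exact (Classical.choose_spec h.exists_prim).1

theorem Dec.hasDerivH_prim {φ : ℍ → ℂ} (h : Dec φ) : HasDerivH (prim φ) φ := by
  rw [prim, dif_pos h]
  exact (Classical.choose_spec h.exists_prim).2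

theorem prim_unique {φ F : ℍ → ℂ} (h : Dec φ) (hF : HasDerivH F φ) (hz : IsZeroAtImInfty F) :
    F = prim φ :=
  eq_of_hasDerivH hF h.hasDerivH_prim hz h.dec_prim.zero

end Fermat.Agent.S22
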