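import Fermat.Agent.S22_Upper
import Fermat.Agent.S22.EEAlg
import Fermat.Agent.S22.RatDecomp
import Fermat.Agent.S22.HeckeSum
import Fermat.Agent.S22.PolyFacts

set_option autoImplicit false

open Complex Filter Topology MvPolynomial
open UpperHalfPlane hiding I
open scoped Real Manifold ModularForm MatrixGroups

namespace Fermat.Agent.S22

/-- The class of functions on `ℍ` all of whose translates by rational matrices of positive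
determinant are holomorphic, periodic and vanish at `i∞`. -/
def Cc (k : ℤ) (φ : ℍ → ℂ) : Prop :=
  ∀ δ : GL (Fin 2) ℚ, 0 < δ.det.val → Dec (φ ∣[k] rmap δ)

theorem det_mul_pos {α δ : GL (Fin 2) ℚ} (hα : 0 < α.det.val) (hδ : 0 < δ.det.val) :
    0 < (α * δ).det.val := by
  rw [map_mul, Units.val_mul]
  exact mul_pos hα hδ

theorem det_inv_pos {γ : GL (Fin 2) ℝ} (h : 0 < γ.det.val) : 0 < (γ⁻¹).det.val := by
  rw [map_inv, Units.val_inv_eq_inv_val]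
  exact inv_pos.mpr h

theorem Cc.slash {k : ℤ} {φ : ℍ → ℂ} (h : Cc k φ) {α : GL (Fin 2) ℚ} (hα : 0 < α.det.val) :
    Cc k (φ ∣[k] rmap α) := by
  intro δ hδ
  rw [← SlashAction.slash_mul, ← map_mul]
  exact h _ (det_mul_pos hα hδ)

theorem Cc.dec {k : ℤ} {φ : ℍ → ℂ} (h : Cc k φ) : Dec φ := by
  have := h 1 (by simp)
  simpa using this

theorem Cc.add {k : ℤ} {φ ψ : ℍ → ℂ} (h : Cc k φ) (h' : Cc k ψ) : Cc k (φ + ψ) := by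
  intro δ hδ
  rw [SlashAction.add_slash]
  exact (h δ hδ).add (h' δ hδ)

theorem Cc.const_smul {k : ℤ} {φ : ℍ → ℂ} (h : Cc k φ) (c : ℂ) : Cc k (c • φ) := by
  intro δ hδ
  rw [smul_slash_of_det_pos k _ (det_rmap_pos hδ)]
  exact (h δ hδ).const_mul c

/-- The primitive of `φ(τ)(X - τ Y)^n` normalised at the cusp `δ∞`. -/
noncomputable def Fp (n : ℕ) (φ : ℍ → ℂ) (δ : GL (Fin 2) ℚ) : ℍ → MvPolynomial (Fin 2) ℂ :=
  act (rmap δ)⁻¹ (EE n (φ ∣[(n : ℤ) + 2] rmap δ))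

/-- The modular symbol between the cusps `δ∞` and `δ'∞`. -/
noncomputable def Lam (n : ℕ) (φ : ℍ → ℂ) (δ δ' : GL (Fin 2) ℚ) : MvPolynomial (Fin 2) ℂ :=
  Fp n φ δ UpperHalfPlane.I - Fp n φ δ' UpperHalfPlane.I

theorem primP_Fp {n : ℕ} {φ : ℍ → ℂ} (h : Cc ((n : ℤ) + 2) φ) {δ : GL (Fin 2) ℚ}
    (hδ : 0 < δ.det.val) : PrimP n (Fp n φ δ) φ := by
  have h1 := (primP_EE (n := n) (h δ hδ)).act (rmap δ)⁻¹ (det_inv_pos (det_rmap_pos hδ))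
  rw [← SlashAction.slash_mul, mul_inv_cancel, SlashAction.slash_one] at h1
  exact h1

theorem Fp_sub_eq_Lam {n : ℕ} {φ : ℍ → ℂ} (h : Cc ((n : ℤ) + 2) φ) {δ δ' : GL (Fin 2) ℚ}
    (hδ : 0 < δ.det.val) (hδ' : 0 < δ'.det.val) (τ : ℍ) :
    Fp n φ δ τ - Fp n φ δ' τ = Lam n φ δ δ' :=
  (primP_Fp h hδ).sub_const (primP_Fp h hδ') τ UpperHalfPlane.I

theorem rmap_apply (u : GL (Fin 2) ℚ) (i j : Fin 2) : (rmap u) i j = ((u i j : ℚ) : ℝ) := rfl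

theorem Fp_mul_upper {n : ℕ} {φ : ℍ → ℂ} (h : Cc ((n : ℤ) + 2) φ) {δ u : GL (Fin 2) ℚ}
    (hδ : 0 < δ.det.val) (hu : 0 < u.det.val) (hu10 : u 1 0 = 0) :
    Fp n φ (δ * u) = Fp n φ δ := by
  have hu10' : (rmap u) 1 0 = 0 := by rw [rmap_apply, hu10]; simp
  have h1 : EE n ((φ ∣[(n : ℤ) + 2] rmap δ) ∣[(n : ℤ) + 2] rmap u) =
      act (rmap u) (EE n (φ ∣[(n : ℤ) + 2] rmap δ)) := by
    refine EE_slash_upper (h δ hδ) (rmap u) (det_rmap_pos hu) hu10' ?_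
    rw [← SlashAction.slash_mul, ← map_mul]
    exact h _ (det_mul_pos hδ hu)
  unfold Fp
  rw [map_mul, SlashAction.slash_mul, h1, act_act, mul_inv_rev, mul_inv_cancel_left]

theorem Fp_slash {n : ℕ} (φ : ℍ → ℂ) (α δ : GL (Fin 2) ℚ) :
    Fp n (φ ∣[(n : ℤ) + 2] rmap α) δ = act (rmap α) (Fp n φ (α * δ)) := by
  unfold Fp
  rw [act_act, ← SlashAction.slash_mul, map_mul, mul_inv_rev, inv_mul_cancel_right]

theorem Lam_add (n : ℕ) (φ : ℍ → ℂ) (δ δ' δ'' : GL (Fin 2) ℚ) :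
    Lam n φ δ δ' + Lam n φ δ' δ'' = Lam n φ δ δ'' := by
  unfold Lam
  ring

theorem Lam_self (n : ℕ) (φ : ℍ → ℂ) (δ : GL (Fin 2) ℚ) : Lam n φ δ δ = 0 := by
  unfold Lam
  ring

theorem Lam_slash {n : ℕ} {φ : ℍ → ℂ} (h : Cc ((n : ℤ) + 2) φ) {α δ δ' : GL (Fin 2) ℚ}
    (hα : 0 < α.det.val) (hδ : 0 < δ.det.val) (hδ' : 0 < δ'.det.val) :
    Lam n (φ ∣[(n : ℤ) + 2] rmap α) δ δ' = subst (rmap α) (Lam n φ (α * δ) (α * δ')) := by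
  rw [Lam, Fp_slash, Fp_slash]
  simp only [act]
  rw [← map_sub, Fp_sub_eq_Lam h (det_mul_pos hα hδ) (det_mul_pos hα hδ')]

theorem Lam_mul_upper {n : ℕ} {φ : ℍ → ℂ} (h : Cc ((n : ℤ) + 2) φ) {δ δ' u u' : GL (Fin 2) ℚ}
    (hδ : 0 < δ.det.val) (hδ' : 0 < δ'.det.val) (hu : 0 < u.det.val) (hu10 : u 1 0 = 0)
    (hu' : 0 < u'.det.val) (hu'10 : u' 1 0 = 0) :
    Lam n φ (δ * u) (δ' * u') = Lam n φ δ δ' := by
  unfold Lam
  rw [Fp_mul_upper h hδ hu hu10, Fp_mul_upper h hδ' hu' hu'10]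

theorem Fp_add {n : ℕ} {φ ψ : ℍ → ℂ} (h : Cc ((n : ℤ) + 2) φ) (h' : Cc ((n : ℤ) + 2) ψ)
    {δ : GL (Fin 2) ℚ} (hδ : 0 < δ.det.val) (τ : ℍ) :
    Fp n (φ + ψ) δ τ = Fp n φ δ τ + Fp n ψ δ τ := by
  simp only [Fp, act]
  rw [SlashAction.add_slash, EE_add (h δ hδ) (h' δ hδ), map_add]

theorem Fp_const_smul {n : ℕ} {φ : ℍ → ℂ} (h : Cc ((n : ℤ) + 2) φ) (c : ℂ)
    {δ : GL (Fin 2) ℚ} (hδ : 0 < δ.det.val) (τ : ℍ) :
    Fp n (c • φ) δ τ = c • Fp n φ δ τ := by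
  simp only [Fp, act]
  rw [smul_slash_of_det_pos _ _ (det_rmap_pos hδ), EE_const_smul (h δ hδ), map_smul]

theorem Lam_add_left {n : ℕ} {φ ψ : ℍ → ℂ} (h : Cc ((n : ℤ) + 2) φ) (h' : Cc ((n : ℤ) + 2) ψ)
    {δ δ' : GL (Fin 2) ℚ} (hδ : 0 < δ.det.val) (hδ' : 0 < δ'.det.val) :
    Lam n (φ + ψ) δ δ' = Lam n φ δ δ' + Lam n ψ δ δ' := by
  unfold Lam
  rw [Fp_add h h' hδ, Fp_add h h' hδ']
  ring

theorem Lam_const_smul {n : ℕ} {φ : ℍ → ℂ} (h : Cc ((n : ℤ) + 2) φ) (c : ℂ)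
    {δ δ' : GL (Fin 2) ℚ} (hδ : 0 < δ.det.val) (hδ' : 0 < δ'.det.val) :
    Lam n (c • φ) δ δ' = c • Lam n φ δ δ' := by
  unfold Lam
  rw [Fp_const_smul h c hδ, Fp_const_smul h c hδ', smul_sub]

theorem isHomogeneous_Lam (n : ℕ) (φ : ℍ → ℂ) (δ δ' : GL (Fin 2) ℚ) :
    (Lam n φ δ δ').IsHomogeneous n := by
  unfold Lam Fp act
  exact (isHomogeneous_subst _ (isHomogeneous_EE _ _ _)).sub
    (isHomogeneous_subst _ (isHomogeneous_EE _ _ _))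

end Fermat.Agent.S22
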