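import Fermat.Agent.S22_EE

set_option autoImplicit false

open Complex Filter Topology MvPolynomial
open UpperHalfPlane hiding I
open scoped Real Manifold ModularForm

namespace Fermat.Agent.S22

theorem subst_C (γ : GL (Fin 2) ℝ) (c : ℂ) : subst γ (C c) = C c := by
  simp [subst]

theorem subst_X (γ : GL (Fin 2) ℝ) (i : Fin 2) :
    subst γ (X i) = C ((γ i 0 : ℝ) : ℂ) * X 0 + C ((γ i 1 : ℝ) : ℂ) * X 1 := by
  simp [subst]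

theorem upper_entries_ne_zero (u : GL (Fin 2) ℝ) (hu : 0 < u.det.val) (hu10 : u 1 0 = 0) :
    u.det.val = u 0 0 * u 1 1 ∧ u 0 0 ≠ 0 ∧ u 1 1 ≠ 0 := by
  have hdet : u.det.val = u 0 0 * u 1 1 := by
    have : u.det.val = u.val.det := rfl
    rw [this, Matrix.det_fin_two]
    change u 0 0 * u 1 1 - u 0 1 * u 1 0 = _
    rw [hu10]; ring
  have hpos : 0 < u 0 0 * u 1 1 := hdet ▸ hu
  refine ⟨hdet, fun h0 => ?_, fun h0 => ?_⟩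
  · rw [h0, zero_mul] at hpos; exact lt_irrefl _ hpos
  · rw [h0, mul_zero] at hpos; exact lt_irrefl _ hpos

theorem slash_upper (k : ℤ) (ψ : ℍ → ℂ) (u : GL (Fin 2) ℝ) (hu : 0 < u.det.val)
    (hu10 : u 1 0 = 0) :
    ψ ∣[k] u = fun τ =>
      (((u.det.val : ℝ) : ℂ) ^ (k - 1) * ((u 1 1 : ℝ) : ℂ) ^ (-k)) * ψ (u • τ) := by
  funext τ
  rw [ModularForm.slash_apply, UpperHalfPlane.σ, if_pos hu, ContinuousAlgEquiv.refl_apply,
    abs_of_pos hu]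
  have hden : denom u τ = ((u 1 1 : ℝ) : ℂ) := by simp [denom, hu10]
  rw [hden]
  ring

theorem coe_smul_upper (u : GL (Fin 2) ℝ) (hu : 0 < u.det.val) (hu10 : u 1 0 = 0) (τ : ℍ) :
    ((u • τ : ℍ) : ℂ) = (((u 0 0 : ℝ) : ℂ) * τ + ((u 0 1 : ℝ) : ℂ)) / ((u 1 1 : ℝ) : ℂ) := by
  rw [coe_smul_of_det_pos hu]
  simp [num, denom, hu10]

theorem subst_upper_X1 (u : GL (Fin 2) ℝ) (hu10 : u 1 0 = 0) :
    subst u (X 1) = C ((u 1 1 : ℝ) : ℂ) * X 1 := by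
  rw [subst_X, hu10]
  simp

theorem subst_upper_lin (u : GL (Fin 2) ℝ) (hu : 0 < u.det.val) (hu10 : u 1 0 = 0) (τ : ℍ) :
    subst u (X 0 - C ((u • τ : ℍ) : ℂ) * X 1) =
      C ((u 0 0 : ℝ) : ℂ) * (X 0 - C (τ : ℂ) * X 1) := by
  obtain ⟨-, -, hd⟩ := upper_entries_ne_zero u hu hu10
  have hd' : ((u 1 1 : ℝ) : ℂ) ≠ 0 := by exact_mod_cast hd
  rw [map_sub, map_mul, subst_C, subst_upper_X1 u hu10, subst_X, coe_smul_upper u hu hu10]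
  have : C ((((u 0 0 : ℝ) : ℂ) * τ + ((u 0 1 : ℝ) : ℂ)) / ((u 1 1 : ℝ) : ℂ)) *
      (C ((u 1 1 : ℝ) : ℂ) * X 1) =
      (C ((u 0 0 : ℝ) : ℂ) * C (τ : ℂ) + C ((u 0 1 : ℝ) : ℂ)) * (X 1 : MvPolynomial (Fin 2) ℂ) := by
    rw [← mul_assoc, ← C_mul, div_mul_cancel₀ _ hd', C_add, C_mul]
  rw [this]
  ring

/-- Compatibility of the normalised primitive with upper triangular matrices. -/
theorem EE_slash_upper {n : ℕ} {ψ : ℍ → ℂ} (h : Dec ψ) (u : GL (Fin 2) ℝ) (hu : 0 < u.det.val)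
    (hu10 : u 1 0 = 0) (h' : Dec (ψ ∣[(n : ℤ) + 2] u)) :
    EE n (ψ ∣[(n : ℤ) + 2] u) = act u (EE n ψ) := by
  obtain ⟨hdet, ha, hd⟩ := upper_entries_ne_zero u hu hu10
  have ha' : ((u 0 0 : ℝ) : ℂ) ≠ 0 := by exact_mod_cast ha
  have hd' : ((u 1 1 : ℝ) : ℂ) ≠ 0 := by exact_mod_cast hd
  set κ : ℂ := ((u.det.val : ℝ) : ℂ) ^ ((n : ℤ) + 2 - 1) * ((u 1 1 : ℝ) : ℂ) ^ (-((n : ℤ) + 2))
    with hκ
  have hκ0 : κ ≠ 0 := by
    rw [hκ]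
    refine mul_ne_zero (zpow_ne_zero _ ?_) (zpow_ne_zero _ hd')
    exact_mod_cast hu.ne'
  have hsl : ψ ∣[(n : ℤ) + 2] u = fun τ => κ * ψ (u • τ) := slash_upper _ ψ u hu hu10
  have hcomp : Dec (fun τ => ψ (u • τ)) := by
    have := h'.const_mul κ⁻¹
    rw [hsl] at this
    convert this using 2 with τ
    field_simp
  have hκval : κ = ((u 0 0 : ℝ) : ℂ) ^ (n + 1) / ((u 1 1 : ℝ) : ℂ) := by
    rw [hκ, hdet]
    have hk : ((n : ℤ) + 2 - 1) = ((n + 1 : ℕ) : ℤ) := by push_cast; ring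
    have hk2 : (-((n : ℤ) + 2)) = -((n + 2 : ℕ) : ℤ) := by push_cast; ring
    rw [hk, hk2, zpow_natCast, zpow_neg, zpow_natCast]
    push_cast
    field_simp
    ring
  have hiter : ∀ m : ℕ, prim^[m] (ψ ∣[(n : ℤ) + 2] u) = fun τ =>
      κ * ((((u 1 1 : ℝ) : ℂ) / ((u 0 0 : ℝ) : ℂ)) ^ m * prim^[m] ψ (u • τ)) := by
    intro m
    rw [hsl, iterate_prim_const_mul hcomp, iterate_prim_comp_smul h u hu hu10 hcomp]
  funext τ
  simp only [EE, Fermat.Agent.S22.act, map_sum]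
  refine Finset.sum_congr rfl fun m hm => ?_
  have hmn : m ≤ n := Nat.lt_succ_iff.mp (Finset.mem_range.mp hm)
  obtain ⟨j, rfl⟩ := Nat.exists_eq_add_of_le hmn
  rw [hiter (m + 1)]
  simp only [map_mul, map_pow, subst_C, subst_upper_X1 u hu10, subst_upper_lin u hu hu10,
    Nat.add_sub_cancel_left]
  have key : ((m + j).descFactorial m : ℂ) *
      (κ * ((((u 1 1 : ℝ) : ℂ) / ((u 0 0 : ℝ) : ℂ)) ^ (m + 1) * prim^[m + 1] ψ (u • τ))) =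
      ((m + j).descFactorial m : ℂ) * prim^[m + 1] ψ (u • τ) * ((u 1 1 : ℝ) : ℂ) ^ m *
        ((u 0 0 : ℝ) : ℂ) ^ j := by
    rw [hκval, div_pow]
    have e1 : ((u 0 0 : ℝ) : ℂ) ^ (m + j + 1) =
        ((u 0 0 : ℝ) : ℂ) ^ (m + 1) * ((u 0 0 : ℝ) : ℂ) ^ j := by ring
    have e2 : ((u 1 1 : ℝ) : ℂ) ^ (m + 1) = ((u 1 1 : ℝ) : ℂ) ^ m * ((u 1 1 : ℝ) : ℂ) := pow_succ _ _
    rw [e1, e2]
    have ha'' : ((u 0 0 : ℝ) : ℂ) ^ (m + 1) ≠ 0 := pow_ne_zero _ ha'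
    field_simp
  have key' := congrArg (C : ℂ → MvPolynomial (Fin 2) ℂ) key
  simp only [C_mul, C_pow] at key' ⊢
  generalize (X 0 - C (τ : ℂ) * X 1 : MvPolynomial (Fin 2) ℂ) = L
  linear_combination (X 1 ^ m * L ^ j) * key'

end Fermat.Agent.S22
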