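-- Statement S24: the genus of the function field of X₀(N) over the algebraic closure of ℚ
-- equals the classical genus formula.
import Fermat.Statements.S24
import Fermat.Agent.S24.FinalAsm
import Fermat.Agent.S24.Degree
import Fermat.Agent.S24.FibreFinite
import Fermat.Agent.S24.FibreCuspMain

set_option autoImplicit false
open ModularCurve

namespace Fermat.Agent.S24

theorem result (N : ℕ) [NeZero N]
    [AlgebraicCurve.HasCanonicalDivisor (K := AlgebraicClosure ℚ) (F := ↥(ModularCurve.modularFunctionFieldBar N))] :
    (AlgebraicCurve.genus (AlgebraicClosure ℚ) ↥(ModularCurve.modularFunctionFieldBar N) : ℚ)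
      = ModularCurve.genusFormula N := by
  have hx := transcendental_xgen (AlgebraicClosure ℚ) N
  have hdeg := finrank_FK (AlgebraicClosure ℚ) kEmb N
  exact genus_FK_of_inputs (AlgebraicClosure ℚ) N hx hdeg
    (fun a ha0 ha1 v hv => unramified_of_ne kEmb N hdeg a ha0 ha1 v hv)
    (card_places_zero kEmb N hdeg)
    (card_places_1728 kEmb N hdeg)
    (card_places_cusp (AlgebraicClosure ℚ) kEmb N hx hdeg)

end Fermat.Agent.S24
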