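-- Statement S28 (row 27): the base change of the Igusa scheme to a field of characteristic `ℓ ∤ N`
-- is integral.  The statement below is byte-identical to the frozen statement
-- ModularCurve.IgusaScheme.FermatFrozen.S28 (Fermat/Statements/S28.lean).
-- Proof: norm relation of the eta-quotient unit over ℚ (S28/AFinal), generation of the function
-- field by (j, unit) (S28/GenQ), reduction of the charts modulo ℓ and gluing (S28/Assembly).
import Fermat.Statements.S28
import Fermat.Agent.S28.Assembly
import Fermat.Agent.S28.AFinal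
import Fermat.Agent.S28.GenQ

set_option autoImplicit false
open AlgebraicGeometry CategoryTheory CategoryTheory.Limits ModularCurve ModularCurve.IgusaScheme
noncomputable section
set_option autoImplicit false
open ModularCurve ModularCurve.IgusaScheme

namespace Fermat.Agent.S28

set_option maxHeartbeats 4000000 in
set_option synthInstance.maxHeartbeats 400000 in
theorem result
    (N : ℕ) [NeZero N] (ℓ : ℕ) [Fact ℓ.Prime] (hℓN : ¬ ℓ ∣ N)
    (K : Type) [Field K] [CharP K ℓ] [Algebra ↥(GaloisRep.ratLocalizedAt ℓ) K] :
    IsIntegral ↑(pullback (igusaTo N ℓ)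
      (Spec.map (CommRingCat.ofHom (algebraMap ↥(GaloisRep.ratLocalizedAt ℓ) K)))) := by
  obtain ⟨P, hP, hdeg, hbound, ⟨c, hc0, hcC, hcinv⟩, hcoef, hroot⟩ :=
    AFinal.exists_relation N
  exact Assembly.isIntegral_of_relation N ℓ K (Nat.totient_pos.mpr (NeZero.pos N))
    (FormalU.uZ N) (fun n hn => FormalU.uZ_coeff_of_lt N hn) P hP hdeg hbound c hc0 hcC
    (hcinv ℓ Fact.out hℓN) (fun i m => hcoef i m ℓ Fact.out hℓN) hroot (GenQ.generation N)

end Fermat.Agent.S28
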