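-- Statement S37 (row 36).  The statement below is byte-identical to the frozen statement
-- ModularCurve.FermatFrozen.S37 (Fermat/Statements/S37.lean; the theorem
-- ModularCurve.specializationExists_JZero).
--
-- Proof (route Lambda): J' := J₀(N) / (Hecke span of the inertia differences and of the Frobenius
-- relation) (`S37/Top`); the only content is that this span meets the prime-to-ℓ torsion trivially,
-- which follows from the specialisation map `ρ = r_* ∘ π^* : Div(F_N) → Div(κ_M)`,
-- M = lcm(M₀, N), built from the Gauss reduction of F_M (`S37/SpecLvl`, on top of the S18 layer):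
-- `ρ` kills inertia differences and σ₀² - T_ℓ σ₀ + ℓ on degree-zero divisors (bounded-defect
-- lemma `S37/BddZero` + Kronecker's congruence for the norm of β f, `S37/HTClosed`), and a
-- torsion class of order prime to ℓ in its kernel is trivial (`S37/Torsion`, the tail of S18).
-- See `Fermat/Agent/S37/ESLvl.lean` for the assembly.
import Fermat.Statements.S37
import Fermat.Agent.S37.Top
import Fermat.Agent.S37.ESLvl
import Fermat.Agent.S37.HTClosed

set_option autoImplicit false
set_option synthInstance.maxHeartbeats 400000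
open ModularCurve

namespace Fermat.Agent.S37

theorem result (N p : ℕ) [NeZero N] (hcomm : ModularCurve.HeckeOperatorsCommuteBar N) : letI := ModularCurve.heckeModuleBar N; ∀ (_ : SMulCommClass (AlgebraicClosure ℚ ≃ₐ[ℚ] AlgebraicClosure ℚ) ModularCurve.HeckeAlg (ModularCurve.JZero N)), ModularCurve.SpecializationExists (K := ℚ) (L := AlgebraicClosure ℚ) N p (ModularCurve.JZero N) :=
  Top.main N p hcomm fun ℓ hℓ hℓN A hA σ₀ hσ₀ =>
    haveI : NeZero ℓ := ⟨hℓ.ne_zero⟩
    haveI := HeckeFin.hasPrincipalDivisors (N * ℓ)
    ESLvl.main_of_hT hℓ hℓN A hA σ₀ hσ₀ fun f x hfx hx =>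
      HTClosed.main_gauss hℓ hℓN (Fermat.Agent.S18.LevelNum.not_dvd_levelM hℓ hℓN) A hA
        (ESLvl.le_levelM' ℓ N) (HeckeFin.alphaIntegral N ℓ) (HeckeFin.betaIntegral N ℓ) f x hfx hx

end Fermat.Agent.S37
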