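import Mathlib

/-!
Abstract commutative-algebra part of the lifting lemma (S49).
-/

set_option autoImplicit false
set_option linter.style.haveILetI false

namespace Fermat.Agent.S49

open Polynomial

/-- A prime ideal of a commutative finite-dimensional `ℂ`-algebra acting faithfully on a
finite-dimensional space is the kernel of a character which occurs as a simultaneous
eigen-character. -/
theorem exists_eigenvector_of_prime
    {B V : Type*} [CommRing B] [Algebra ℂ B] [AddCommGroup V] [Module ℂ V] [FiniteDimensional ℂ V]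
    (φ : B →ₐ[ℂ] Module.End ℂ V) (hφ : Function.Injective φ) (𝔫 : Ideal B) [h𝔫 : 𝔫.IsPrime] :
    ∃ (w : V) (χ : B →+* ℂ), w ≠ 0 ∧ (∀ b, φ b w = χ b • w) ∧ ∀ b, χ b = 0 ↔ b ∈ 𝔫 := by
  classical
  haveI : Module.Finite ℂ B := Module.Finite.of_injective φ.toLinearMap hφ
  haveI : IsArtinianRing B := IsArtinianRing.of_finite ℂ B
  haveI : IsNoetherianRing B := IsNoetherianRing.of_finite ℂ B
  letI : Module B V := Module.compHom V φ.toRingHom
  have hsmul : ∀ (b : B) (x : V), b • x = φ b x := fun _ _ => rfl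
  haveI : IsScalarTower ℂ B V := ⟨fun c b x => by
    rw [hsmul, hsmul, map_smul, LinearMap.smul_apply]⟩
  haveI : Module.Finite B V := Module.Finite.of_restrictScalars_finite ℂ B V
  have hann : Module.annihilator B V = ⊥ := by
    rw [eq_bot_iff]
    intro b hb
    rw [Module.mem_annihilator] at hb
    rw [Ideal.mem_bot]
    apply hφ
    rw [map_zero]
    ext x
    simpa [hsmul] using hb x
  have hmin : 𝔫 ∈ (Module.annihilator B V).minimalPrimes := by
    rw [hann]
    refine ⟨⟨h𝔫, bot_le⟩, fun q hq hq𝔫 => ?_⟩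
    have hqmax : q.IsMaximal := (IsArtinianRing.isPrime_iff_isMaximal q).mp hq.1
    exact (hqmax.eq_of_le h𝔫.ne_top hq𝔫).ge
  have hass : IsAssociatedPrime 𝔫 V :=
    Module.associatedPrimes.minimalPrimes_annihilator_subset_associatedPrimes B V hmin
  obtain ⟨-, w, hw⟩ := isAssociatedPrime_iff.mp hass
  have hmem : ∀ b : B, b ∈ 𝔫 ↔ b • w = 0 := by
    intro b
    rw [hw, Submodule.mem_colon_singleton, Submodule.mem_bot]
  haveI : IsDomain (B ⧸ 𝔫) := Ideal.Quotient.isDomain 𝔫
  haveI : Algebra.IsIntegral ℂ (B ⧸ 𝔫) := Algebra.IsIntegral.of_finite ℂ (B ⧸ 𝔫)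
  have bij : Function.Bijective (algebraMap ℂ (B ⧸ 𝔫)) :=
    IsAlgClosed.algebraMap_bijective_of_isIntegral
  let e : ℂ ≃+* (B ⧸ 𝔫) := RingEquiv.ofBijective (algebraMap ℂ (B ⧸ 𝔫)) bij
  let χ : B →+* ℂ := e.symm.toRingHom.comp (Ideal.Quotient.mk 𝔫)
  have hχ : ∀ b, b - algebraMap ℂ B (χ b) ∈ 𝔫 := by
    intro b
    rw [← Ideal.Quotient.eq]
    have h1 : Ideal.Quotient.mk 𝔫 (algebraMap ℂ B (χ b)) = e (χ b) := rfl
    rw [h1]
    simp [χ]
  refine ⟨w, χ, ?_, ?_, ?_⟩
  · rintro rfl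
    apply h𝔫.ne_top
    rw [Ideal.eq_top_iff_one, hmem, smul_zero]
  · intro b
    have h1 := (hmem _).mp (hχ b)
    rw [sub_smul, sub_eq_zero, algebraMap_smul] at h1
    rw [← hsmul, h1]
  · intro b
    rw [← Ideal.Quotient.eq_zero_iff_mem]
    simp [χ]


/-- A finitely generated `ℤ`-lattice spanning `V` forces finite-dimensionality. -/
theorem finiteDimensional_of_lattice {V : Type*} [AddCommGroup V] [Module ℂ V]
    (L : Submodule ℤ V) (hLfg : L.FG) (hLspan : Submodule.span ℂ (L : Set V) = ⊤) :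
    FiniteDimensional ℂ V := by
  obtain ⟨s, hs⟩ := hLfg
  refine Module.finite_def.mpr ⟨s, ?_⟩
  rw [← hLspan, ← hs, Submodule.span_span_of_tower]

/-- An endomorphism stabilising a finitely generated spanning lattice is integral over `ℤ`. -/
theorem isIntegral_of_stabilizes_lattice {V : Type*} [AddCommGroup V] [Module ℂ V]
    (L : Submodule ℤ V) (hLfg : L.FG) (hLspan : Submodule.span ℂ (L : Set V) = ⊤)
    (t : Module.End ℂ V) (ht : ∀ x ∈ L, t x ∈ L) : IsIntegral ℤ t := by
  classical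
  haveI : Module.Finite ℤ L := Module.Finite.iff_fg.mpr hLfg
  let tL : Module.End ℤ L := (t.restrictScalars ℤ).restrict ht
  obtain ⟨p, hpm, hp⟩ := (Module.End.isIntegral (R := ℤ) (M := L)).isIntegral tL
  refine ⟨p, hpm, ?_⟩
  have hpow : ∀ (i : ℕ) (x : L), (((tL ^ i) x : L) : V) = (t ^ i) (x : V) := by
    intro i
    induction i with
    | zero => intro x; simp
    | succ i ih =>
      intro x
      rw [pow_succ, pow_succ, Module.End.mul_apply, Module.End.mul_apply, ih]
      rfl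
  have hp' : Polynomial.aeval tL p = 0 := hp
  show Polynomial.aeval t p = 0
  apply LinearMap.ext_on hLspan
  intro x hx
  have h1 := congrArg (fun g : Module.End ℤ L => ((g ⟨x, hx⟩ : L) : V)) hp'
  simp only [Polynomial.aeval_eq_sum_range, LinearMap.sum_apply, LinearMap.smul_apply,
    LinearMap.zero_apply, Submodule.coe_sum, Submodule.coe_smul, hpow, ZeroMemClass.coe_zero] at h1
  simp only [Polynomial.aeval_eq_sum_range, LinearMap.sum_apply, LinearMap.smul_apply,
    LinearMap.zero_apply]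
  exact h1


open scoped IsMulCommutative in
/-- The abstract lifting lemma: a commutative `ℤ`-algebra `𝕋` of integral endomorphisms of a
finite-dimensional complex space, a `𝕋`-stable subgroup `L'` and a vector `v ∉ L'`.  Then there is
a simultaneous eigenvector `w` whose eigenvalues `lam t` are algebraic integers, together with a
maximal ideal of the ring of algebraic integers containing `lam t` whenever `t v ∈ L'`. -/
theorem exists_lift
    {V : Type*} [AddCommGroup V] [Module ℂ V] [FiniteDimensional ℂ V]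
    (𝕋 : Subalgebra ℤ (Module.End ℂ V)) (hcomm : ∀ x ∈ 𝕋, ∀ y ∈ 𝕋, x * y = y * x)
    (hint : ∀ t ∈ 𝕋, IsIntegral ℤ t)
    (L' : AddSubgroup V) (hL' : ∀ t ∈ 𝕋, ∀ x ∈ L', t x ∈ L') (v : V) (hv : v ∉ L') :
    ∃ (w : V) (lam : 𝕋 → integralClosure ℤ ℂ) (𝔪' : Ideal (integralClosure ℤ ℂ)),
      w ≠ 0 ∧ 𝔪'.IsMaximal ∧ (∀ t : 𝕋, (t : Module.End ℂ V) w = (lam t : ℂ) • w) ∧
      (∀ t : 𝕋, (t : Module.End ℂ V) v ∈ L' → lam t ∈ 𝔪') := by
  classical
  haveI : IsMulCommutative 𝕋 := ⟨⟨fun a b => Subtype.ext (hcomm a a.2 b b.2)⟩⟩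
  let 𝔞 : Ideal 𝕋 :=
    { carrier := {t | (t : Module.End ℂ V) v ∈ L'}
      add_mem' := fun {a b} ha hb => by
        show ((a + b : 𝕋) : Module.End ℂ V) v ∈ L'
        rw [Subalgebra.coe_add, LinearMap.add_apply]
        exact L'.add_mem ha hb
      zero_mem' := by
        show ((0 : 𝕋) : Module.End ℂ V) v ∈ L'
        rw [Subalgebra.coe_zero, LinearMap.zero_apply]
        exact L'.zero_mem
      smul_mem' := fun c {a} ha => by
        show ((c * a : 𝕋) : Module.End ℂ V) v ∈ L'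
        rw [Subalgebra.coe_mul, Module.End.mul_apply]
        exact hL' _ c.2 _ ha }
  have h𝔞 : 𝔞 ≠ ⊤ := by
    rw [Ideal.ne_top_iff_one]
    intro h
    apply hv
    have h1 : ((1 : 𝕋) : Module.End ℂ V) v ∈ L' := h
    simpa using h1
  obtain ⟨M, hM, h𝔞M⟩ := Ideal.exists_le_maximal 𝔞 h𝔞
  haveI : IsMulCommutative (Algebra.adjoin ℂ (𝕋 : Set (Module.End ℂ V))) :=
    Algebra.isMulCommutative_adjoin ℂ hcomm
  let B := Algebra.adjoin ℂ (𝕋 : Set (Module.End ℂ V))
  let ι : 𝕋 →+* B :=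
    { toFun := fun t => ⟨t.1, Algebra.subset_adjoin t.2⟩
      map_one' := rfl
      map_mul' := fun _ _ => rfl
      map_zero' := rfl
      map_add' := fun _ _ => rfl }
  have hι : Function.Injective ι := by
    intro a b hab
    apply Subtype.ext
    exact congrArg (fun x : B => (x : Module.End ℂ V)) hab
  let S : Submonoid B := M.primeCompl.map (ι : 𝕋 →* B)
  have hdisj : Disjoint ((⊥ : Ideal B) : Set B) (S : Set B) := by
    rw [Set.disjoint_left]
    rintro x hx ⟨t, ht, rfl⟩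
    have h0 : ι t = 0 := hx
    have ht0 : t = 0 := hι (by rw [h0, map_zero])
    exact ht (ht0 ▸ M.zero_mem)
  obtain ⟨𝔫, h𝔫, -, h𝔫S⟩ := Ideal.exists_le_prime_disjoint ⊥ S hdisj
  obtain ⟨w, χ, hw, hχw, hχ𝔫⟩ :=
    exists_eigenvector_of_prime (B := B) B.val Subtype.val_injective 𝔫
  have hker : ∀ t : 𝕋, χ (ι t) = 0 → t ∈ M := by
    intro t ht
    by_contra htM
    exact Set.disjoint_left.mp h𝔫S ((hχ𝔫 _).mp ht) ⟨t, htM, rfl⟩
  have hev : ∀ t : 𝕋, (t : Module.End ℂ V) w = χ (ι t) • w := fun t => hχw (ι t)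
  have hintC : ∀ t : 𝕋, χ (ι t) ∈ integralClosure ℤ ℂ := by
    intro t
    obtain ⟨p, hpm, hp⟩ := hint t.1 t.2
    refine ⟨p, hpm, ?_⟩
    have hp' : Polynomial.aeval (t : Module.End ℂ V) p = 0 := hp
    have h1 : Polynomial.aeval (t : Module.End ℂ V) (p.map (algebraMap ℤ ℂ)) w
        = (p.map (algebraMap ℤ ℂ)).eval (χ (ι t)) • w :=
      Module.End.aeval_apply_of_hasEigenvector ⟨Module.End.mem_eigenspace_iff.mpr (hev t), hw⟩
    rw [Polynomial.aeval_map_algebraMap, hp', LinearMap.zero_apply] at h1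
    have h2 := (smul_eq_zero.mp h1.symm).resolve_right hw
    rwa [Polynomial.eval_map] at h2
  let lam : 𝕋 →+* integralClosure ℤ ℂ := (χ.comp ι).codRestrict (integralClosure ℤ ℂ) hintC
  letI : Algebra 𝕋 (integralClosure ℤ ℂ) := lam.toAlgebra
  haveI : Algebra.IsIntegral 𝕋 (integralClosure ℤ ℂ) := Algebra.IsIntegral.tower_top (R := ℤ)
  obtain ⟨𝔪', h𝔪', hcomap⟩ := Ideal.exists_ideal_over_maximal_of_isIntegral
    (S := integralClosure ℤ ℂ) M (by
      intro t ht
      apply hker t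
      have h1 : lam t = 0 := ht
      exact congrArg Subtype.val h1)
  refine ⟨w, lam, 𝔪', hw, h𝔪', hev, ?_⟩
  intro t ht
  have h1 : t ∈ M := h𝔞M ht
  rw [← hcomap] at h1
  exact h1

end Fermat.Agent.S49
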