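import Mathlib
import Fermat.Prelude.Def_FormalHecke_Eigensystem

/-!
Formal part of the lifting lemma (S49): a formal Hecke eigensystem is recursive
(multiplicative on coprime arguments with the usual prime power recursion).
-/

set_option autoImplicit false

namespace Fermat.Agent.S49

open FormalHecke

variable {R : Type*} [CommRing R]

theorem isEigensystem_prime_pow {e a : ℕ → R} (h : IsEigensystem e a) {ℓ : ℕ} (hℓ : ℓ.Prime)
    (r : ℕ) : a (ℓ ^ (r + 2)) = a ℓ * a (ℓ ^ (r + 1)) - e ℓ * a (ℓ ^ r) := by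
  have h1 := h.2 ℓ hℓ (ℓ ^ (r + 1))
  have hdvd : ℓ ∣ ℓ ^ (r + 1) := dvd_pow_self ℓ (Nat.succ_ne_zero r)
  have hdiv : ℓ ^ (r + 1) / ℓ = ℓ ^ r := by
    rw [pow_succ, Nat.mul_div_cancel _ hℓ.pos]
  rw [if_pos hdvd, hdiv] at h1
  have h2 : ℓ ^ (r + 2) = ℓ * ℓ ^ (r + 1) := by ring
  rw [h2, ← h1]
  ring

theorem isEigensystem_prime_pow_mul {e a : ℕ → R} (h : IsEigensystem e a) {ℓ : ℕ}
    (hℓ : ℓ.Prime) {n : ℕ} (hn : ¬ ℓ ∣ n) : ∀ k : ℕ, a (ℓ ^ k * n) = a (ℓ ^ k) * a n := by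
  have key : ∀ k : ℕ, a (ℓ ^ k * n) = a (ℓ ^ k) * a n ∧
      a (ℓ ^ (k + 1) * n) = a (ℓ ^ (k + 1)) * a n := by
    intro k
    induction k with
    | zero =>
      refine ⟨by simp [h.1], ?_⟩
      have h1 := h.2 ℓ hℓ n
      rw [if_neg hn, mul_zero, add_zero] at h1
      simpa using h1
    | succ k ih =>
      refine ⟨ih.2, ?_⟩
      have h1 := h.2 ℓ hℓ (ℓ ^ (k + 1) * n)
      have hdvd : ℓ ∣ ℓ ^ (k + 1) * n := Dvd.dvd.mul_right (dvd_pow_self ℓ (Nat.succ_ne_zero k)) n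
      have hdiv : ℓ ^ (k + 1) * n / ℓ = ℓ ^ k * n := by
        rw [pow_succ, mul_assoc, mul_comm ℓ n, ← mul_assoc, Nat.mul_div_cancel _ hℓ.pos]
      rw [if_pos hdvd, hdiv] at h1
      have h2 : ℓ ^ (k + 1 + 1) * n = ℓ * (ℓ ^ (k + 1) * n) := by ring
      rw [h2, isEigensystem_prime_pow h hℓ k, eq_sub_of_add_eq h1, ih.1, ih.2]
      ring
  exact fun k => (key k).1

theorem isEigensystem_mul_of_coprime {e a : ℕ → R} (h : IsEigensystem e a) :
    ∀ m n : ℕ, m.Coprime n → a (m * n) = a m * a n := by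
  intro m
  induction m using Nat.recOnPrimeCoprime with
  | zero =>
    intro n hn
    have : n = 1 := by simpa using hn
    subst this
    simp [h.1]
  | prime_pow p k hp =>
    intro n hn
    rcases Nat.eq_zero_or_pos k with rfl | hk
    · simp [h.1]
    · apply isEigensystem_prime_pow_mul h hp
      intro hpn
      have h1 : p ∣ Nat.gcd (p ^ k) n := Nat.dvd_gcd (dvd_pow_self p hk.ne') hpn
      rw [hn] at h1
      exact hp.one_lt.ne' (Nat.dvd_one.mp h1)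
  | coprime x y _ _ hxy ihx ihy =>
    intro n hn
    have hxn : x.Coprime n := Nat.Coprime.coprime_mul_right hn
    have hyn : y.Coprime n := Nat.Coprime.coprime_mul_left hn
    have hx_yn : x.Coprime (y * n) := Nat.Coprime.mul_right hxy hxn
    rw [mul_assoc, ihx _ hx_yn, ihy _ hyn, ihx _ hxy]
    ring

theorem isRecursive_of_isEigensystem {e a : ℕ → R} (h : IsEigensystem e a) : IsRecursive e a :=
  ⟨h.1, isEigensystem_mul_of_coprime h, fun _ r hℓ => isEigensystem_prime_pow h hℓ r⟩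


/-- A sequence satisfying the eigen-relations with vanishing zeroth and first terms vanishes. -/
theorem eigen_rel_eq_zero {e c b : ℕ → R} (hb0 : b 0 = 0) (hb1 : b 1 = 0)
    (H : ∀ ℓ : ℕ, ℓ.Prime → ∀ n : ℕ,
      b (ℓ * n) + e ℓ * (if ℓ ∣ n then b (n / ℓ) else 0) = c ℓ * b n) :
    ∀ n : ℕ, b n = 0 := by
  intro n
  induction n using Nat.strong_induction_on with
  | _ n ih =>
    rcases Nat.lt_or_ge n 2 with hn | hn
    · interval_cases n
      · exact hb0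
      · exact hb1
    · obtain ⟨ℓ, hℓ, m, rfl⟩ := Nat.exists_prime_and_dvd (show n ≠ 1 by omega)
      have hm0 : m ≠ 0 := by rintro rfl; simp at hn
      have hm : m < ℓ * m := lt_mul_of_one_lt_left (Nat.pos_of_ne_zero hm0) hℓ.one_lt
      have h1 := H ℓ hℓ m
      have h2 : b (m / ℓ) = 0 := ih _ (lt_of_le_of_lt (Nat.div_le_self m ℓ) hm)
      rw [ih m hm, h2] at h1
      simpa using h1

/-- Normalising a sequence satisfying the eigen-relations. -/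
theorem eigen_rel_normalize {K : Type*} [Field K] {e c b : ℕ → K} (hb1 : b 1 ≠ 0)
    (H : ∀ ℓ : ℕ, ℓ.Prime → ∀ n : ℕ,
      b (ℓ * n) + e ℓ * (if ℓ ∣ n then b (n / ℓ) else 0) = c ℓ * b n) :
    IsEigensystem e (fun n => (b 1)⁻¹ * b n) ∧ ∀ ℓ : ℕ, ℓ.Prime → (b 1)⁻¹ * b ℓ = c ℓ := by
  have hc : ∀ ℓ : ℕ, ℓ.Prime → (b 1)⁻¹ * b ℓ = c ℓ := by
    intro ℓ hℓ
    have h1 := H ℓ hℓ 1
    have h2 : ¬ ℓ ∣ 1 := fun h => hℓ.one_lt.ne' (Nat.dvd_one.mp h)
    rw [if_neg h2, mul_zero, add_zero, mul_one] at h1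
    rw [h1]
    field_simp
  refine ⟨⟨inv_mul_cancel₀ hb1, fun ℓ hℓ n => ?_⟩, hc⟩
  have h1 := H ℓ hℓ n
  show (b 1)⁻¹ * b (ℓ * n) + e ℓ * (if ℓ ∣ n then (b 1)⁻¹ * b (n / ℓ) else 0)
    = (b 1)⁻¹ * b ℓ * ((b 1)⁻¹ * b n)
  rw [hc ℓ hℓ, ← mul_assoc, mul_comm (c ℓ), mul_assoc, ← h1]
  split_ifs <;> ring

end Fermat.Agent.S49
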