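import Fermat.Statements.S49
import Fermat.Agent.S49_Algebra
import Fermat.Agent.S49_Formal
import Fermat.Prelude.Def_CuspForm_HeckeAlgebra
import Fermat.Prelude.Thm_CuspForm_intLattice_fg
import Fermat.Prelude.Thm_CuspForm_mem_intLattice_of_mem_heckeAlgebra
import Fermat.Prelude.Thm_ModularFormClass_qCoeff_heckeT
import Fermat.Prelude.Thm_ModularFormClass_qCoeff_heckeU
import Fermat.Prelude.Thm_CongruenceSubgroup_one_mem_strictPeriods_Gamma0

/-!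
Modular-form part of the lifting lemma (S49).
-/

set_option autoImplicit false
set_option linter.style.haveILetI false

namespace Fermat.Agent.S49

open CuspForm EisensteinWeightOne CongruenceSubgroup ModularFormClass ModularForm

local notation "Γ₀(" N ")" => CongruenceSubgroup.Gamma0 N

theorem one_mem_strictPeriods (N : ℕ) :
    (1 : ℝ) ∈ (Subgroup.map (Matrix.SpecialLinearGroup.mapGL ℝ) Γ₀(N)).strictPeriods :=
  CongruenceSubgroup.one_mem_strictPeriods_Gamma0 N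

/-- The `n`-th `q`-coefficient as a linear functional on cusp forms. -/
noncomputable def qCoeffLin (N : ℕ) (k : ℤ) (n : ℕ) : CuspForm Γ₀(N) k →ₗ[ℂ] ℂ where
  toFun f := qCoeff f n
  map_add' f g := by
    simp only [qCoeff, FunLike.coe_add]
    rw [ModularForm.qExpansion_add one_pos (one_mem_strictPeriods N) f g, map_add]
  map_smul' c f := by
    simp only [qCoeff, FunLike.coe_smul]
    rw [ModularForm.qExpansion_smul one_pos (one_mem_strictPeriods N) c f]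
    simp

theorem qCoeffLin_apply (N : ℕ) (k : ℤ) (n : ℕ) (f : CuspForm Γ₀(N) k) :
    qCoeffLin N k n f = qCoeff f n := rfl

theorem qCoeff_cusp_zero {N : ℕ} {k : ℤ} (f : CuspForm Γ₀(N) k) : qCoeff f 0 = 0 :=
  CuspFormClass.qExpansion_coeff_zero f one_pos (one_mem_strictPeriods N)

theorem eq_zero_of_qCoeff_eq_zero {N : ℕ} [NeZero N] {k : ℤ} (f : CuspForm Γ₀(N) k)
    (hf : ∀ n : ℕ, qCoeff f n = 0) : f = 0 := by
  apply P2MW.S_CuspForm_intLattice_fg.W3WsD.trunc_injective N k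
  rw [map_zero]
  funext i
  exact hf i

theorem mem_intLattice_iff {N : ℕ} {k : ℤ} (f : CuspForm Γ₀(N) k) :
    f ∈ CuspForm.intLattice N k ↔ ∀ n : ℕ, ∃ m : ℤ, qCoeff f n = (m : ℂ) :=
  P2MW.S_CuspForm_intLattice_fg.W3WsD.mem_intLattice_iff f

theorem qCoeff_heckeTLin {N : ℕ} {k : ℤ} {p : ℕ} (hp : p.Prime) (hpN : ¬ p ∣ N)
    (f : CuspForm Γ₀(N) k) (n : ℕ) :
    qCoeff (CuspForm.heckeTLin k hp hpN f) n = coeffHeckeT k p (qCoeff f) n :=
  ModularFormClass.qCoeff_heckeT f (one_mem_strictPeriods N) hp.ne_zero n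

theorem qCoeff_heckeULin {N : ℕ} [NeZero N] {k : ℤ} {p : ℕ} (hp : p.Prime) (hpN : p ∣ N)
    (f : CuspForm Γ₀(N) k) (n : ℕ) :
    qCoeff (CuspForm.heckeULin k hpN f) n = coeffHeckeU p (qCoeff f) n :=
  ModularFormClass.qCoeff_heckeU f (one_mem_strictPeriods N) hp.ne_zero n


/-! ### Integer congruences -/

theorem three_dvd_sub_chiNegThree (ℓ : ℕ) : (3 : ℤ) ∣ (ℓ : ℤ) - chiNegThree ℓ := by
  unfold chiNegThree
  split_ifs <;> omega

theorem e1Chi3In_int_eq : e1Chi3In ℤ = 1 + PowerSeries.C (3 : ℤ) *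
    PowerSeries.mk (fun n => if n = 0 then 0 else 2 * sigmaChi n) := by
  ext m
  rw [map_add, PowerSeries.coeff_C_mul, PowerSeries.coeff_one, PowerSeries.coeff_mk]
  simp only [e1Chi3In, e1Chi3, PowerSeries.coeff_map, PowerSeries.coeff_mk,
    eq_intCast, Int.cast_id]
  split_ifs <;> ring

theorem three_dvd_bridge (a : ℕ → ℤ) (n : ℕ) :
    (3 : ℤ) ∣ PowerSeries.coeff n (bridgeProduct a) - a n := by
  refine ⟨PowerSeries.coeff n (PowerSeries.mk a *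
    PowerSeries.mk (fun n => if n = 0 then 0 else 2 * sigmaChi n)), ?_⟩
  rw [bridgeProduct, e1Chi3In_int_eq, mul_add, mul_one, map_add, PowerSeries.coeff_mk,
    ← mul_assoc, mul_comm _ (PowerSeries.C (3 : ℤ)), mul_assoc, PowerSeries.coeff_C_mul]
  ring

theorem three_dvd_hecke_rel {a af : ℕ → ℤ} (hafa : ∀ n, (3 : ℤ) ∣ af n - a n) (ℓ n : ℕ) (χ : ℤ)
    (hχ : (3 : ℤ) ∣ (ℓ : ℤ) - χ)
    (h : a (ℓ * n) + χ * (if ℓ ∣ n then a (n / ℓ) else 0) = a ℓ * a n) :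
    (3 : ℤ) ∣ af (n * ℓ) + (ℓ : ℤ) * (if ℓ ∣ n then af (n / ℓ) else 0) - a ℓ * af n := by
  obtain ⟨d1, e1⟩ := hafa (ℓ * n)
  obtain ⟨d2, e2⟩ := hafa (n / ℓ)
  obtain ⟨d3, e3⟩ := hafa n
  obtain ⟨u, e4⟩ := hχ
  rw [mul_comm n ℓ]
  by_cases hd : ℓ ∣ n
  · rw [if_pos hd] at h ⊢
    exact ⟨d1 + u * a (n / ℓ) + ℓ * d2 - a ℓ * d3, by
      linear_combination h + e1 + (ℓ : ℤ) * e2 - a ℓ * e3 + a (n / ℓ) * e4⟩
  · rw [if_neg hd] at h ⊢
    exact ⟨d1 - a ℓ * d3, by linear_combination h + e1 - a ℓ * e3⟩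


/-! ### The lattice and its triple -/

theorem qCoeff_smul {N : ℕ} {k : ℤ} (c : ℂ) (f : CuspForm Γ₀(N) k) (n : ℕ) :
    qCoeff (⇑(c • f)) n = c * qCoeff f n :=
  (qCoeffLin N k n).map_smul c f

theorem qCoeff_sub {N : ℕ} {k : ℤ} (f g : CuspForm Γ₀(N) k) (n : ℕ) :
    qCoeff (⇑(f - g)) n = qCoeff f n - qCoeff g n :=
  (qCoeffLin N k n).map_sub f g

theorem span_intLattice_eq_top {N : ℕ} (h : CuspForm.HasIntegralBasis N) :
    Submodule.span ℂ ((CuspForm.intLattice N 2 : Submodule ℤ (CuspForm Γ₀(N) 2)) :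
      Set (CuspForm Γ₀(N) 2)) = ⊤ := by
  rw [eq_top_iff, ← h]
  apply Submodule.span_mono
  intro f hf
  apply Submodule.subset_span
  intro n
  obtain ⟨m, hm⟩ := Subring.mem_bot.mp (hf n)
  exact ⟨m, hm.symm⟩

/-- The subgroup `3 L` of the integral lattice `L`. -/
noncomputable def threeLattice (N : ℕ) : AddSubgroup (CuspForm Γ₀(N) 2) :=
  (CuspForm.intLattice N 2).toAddSubgroup.map
    (((3 : ℂ) • LinearMap.id : CuspForm Γ₀(N) 2 →ₗ[ℂ] CuspForm Γ₀(N) 2)).toAddMonoidHom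

theorem mem_threeLattice_iff {N : ℕ} (g : CuspForm Γ₀(N) 2) :
    g ∈ threeLattice N ↔ ∃ y ∈ CuspForm.intLattice N 2, (3 : ℂ) • y = g := by
  unfold threeLattice
  rw [AddSubgroup.mem_map]
  rfl

theorem mem_threeLattice_of_coeff {N : ℕ} {g : CuspForm Γ₀(N) 2}
    (hg : ∀ n : ℕ, ∃ m : ℤ, qCoeff g n = 3 * (m : ℂ)) : g ∈ threeLattice N := by
  rw [mem_threeLattice_iff]
  refine ⟨(3⁻¹ : ℂ) • g, ?_, ?_⟩
  · rw [mem_intLattice_iff]
    intro n
    obtain ⟨m, hm⟩ := hg n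
    refine ⟨m, ?_⟩
    rw [qCoeff_smul, hm]
    field_simp
  · rw [smul_smul, mul_inv_cancel₀ (by norm_num : (3 : ℂ) ≠ 0), one_smul]

theorem coeff_of_mem_threeLattice {N : ℕ} {g : CuspForm Γ₀(N) 2} (hg : g ∈ threeLattice N)
    (n : ℕ) : ∃ m : ℤ, qCoeff g n = 3 * (m : ℂ) := by
  obtain ⟨y, hy, rfl⟩ := (mem_threeLattice_iff g).mp hg
  obtain ⟨m, hm⟩ := (mem_intLattice_iff y).mp hy n
  exact ⟨m, by rw [qCoeff_smul, hm]⟩

theorem stab_threeLattice {N : ℕ} [NeZero N] :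
    ∀ t ∈ CuspForm.heckeAlgebra N 2 (∅ : Set ℕ), ∀ x ∈ threeLattice N, t x ∈ threeLattice N := by
  intro t ht x hx
  obtain ⟨y, hy, rfl⟩ := (mem_threeLattice_iff x).mp hx
  rw [mem_threeLattice_iff]
  exact ⟨t y, CuspForm.mem_intLattice_of_mem_heckeAlgebra (by norm_num) ht hy, (map_smul t 3 y).symm⟩

theorem qCoeff_T_apply {N : ℕ} {ℓ : ℕ} (hℓ : ℓ.Prime) (hℓN : ¬ ℓ ∣ N) (g : CuspForm Γ₀(N) 2)
    (n : ℕ) : qCoeff (CuspForm.heckeTLin 2 hℓ hℓN g) n =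
      qCoeff g (n * ℓ) + (ℓ : ℂ) * (if ℓ ∣ n then qCoeff g (n / ℓ) else 0) := by
  rw [qCoeff_heckeTLin, coeffHeckeT_apply]
  split_ifs <;> simp

theorem qCoeff_U_apply {N : ℕ} [NeZero N] {ℓ : ℕ} (hℓ : ℓ.Prime) (hℓN : ℓ ∣ N)
    (g : CuspForm Γ₀(N) 2) (n : ℕ) :
    qCoeff (CuspForm.heckeULin 2 hℓN g) n = qCoeff g (n * ℓ) := by
  rw [qCoeff_heckeULin hℓ, coeffHeckeU_apply]


/-! ### The lifting lemma -/

theorem main {N : ℕ} [NeZero N] (h : CuspForm.HasIntegralBasis N) {a : ℕ → ℤ}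
    (heig : FormalHecke.IsEigensystem
      (fun ℓ => if ℓ ∣ N then 0 else ((chiNegThree ℓ : ℤ) : ℤ)) a)
    (hreal : CuspForm.IsLatticeRealized N a) :
    ∃ (f : CuspForm (Gamma0 N) 2) (_ : f.IsNormalizedEigenform)
      (𝔪' : Ideal (integralClosure ℤ ℂ)), 𝔪'.IsMaximal ∧
      ((3 : ℕ) : integralClosure ℤ ℂ) ∈ 𝔪' ∧
      ∀ (ℓ : ℕ) (_ : ℓ.Prime) (_ : ¬ ℓ ∣ N),
        ∃ c : integralClosure ℤ ℂ, (c : ℂ) = ModularFormClass.qCoeff f ℓ ∧
          c - (a ℓ : integralClosure ℤ ℂ) ∈ 𝔪' := by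
  classical
  have hLspan := span_intLattice_eq_top h
  have hLfg : (CuspForm.intLattice N 2).FG := CuspForm.intLattice_fg N 2
  haveI : FiniteDimensional ℂ (CuspForm Γ₀(N) 2) := finiteDimensional_of_lattice _ hLfg hLspan
  have hstab : ∀ t ∈ CuspForm.heckeAlgebra N 2 (∅ : Set ℕ), ∀ x ∈ CuspForm.intLattice N 2,
      t x ∈ CuspForm.intLattice N 2 :=
    fun t ht x hx => CuspForm.mem_intLattice_of_mem_heckeAlgebra (by norm_num) ht hx
  have hcomm : ∀ x ∈ CuspForm.heckeAlgebra N 2 (∅ : Set ℕ),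
      ∀ y ∈ CuspForm.heckeAlgebra N 2 (∅ : Set ℕ), x * y = y * x :=
    fun x hx y hy => congrArg Subtype.val
      (mul_comm (⟨x, hx⟩ : CuspForm.heckeAlgebra N 2 (∅ : Set ℕ)) ⟨y, hy⟩)
  have hint : ∀ t ∈ CuspForm.heckeAlgebra N 2 (∅ : Set ℕ), IsIntegral ℤ t :=
    fun t ht => isIntegral_of_stabilizes_lattice _ hLfg hLspan t (hstab t ht)
  obtain ⟨f0, hf0, af, haf, hcong⟩ := hreal
  have hafa : ∀ n, (3 : ℤ) ∣ af n - a n := fun n => by
    have := dvd_add (hcong n) (three_dvd_bridge a n)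
    simpa using this
  have hf0L : f0 ∈ CuspForm.intLattice N 2 :=
    (mem_intLattice_iff f0).mpr fun n => ⟨af n, (haf n).symm⟩
  have hv : f0 ∉ threeLattice N := by
    intro hmem
    obtain ⟨m, hm⟩ := coeff_of_mem_threeLattice hmem 1
    rw [← haf 1] at hm
    have hm' : af 1 = 3 * m := by exact_mod_cast hm
    have h1 := hafa 1
    rw [heig.1, hm'] at h1
    omega
  obtain ⟨w, lam, 𝔪', hw, h𝔪', hev, hlam⟩ :=
    exists_lift (CuspForm.heckeAlgebra N 2 (∅ : Set ℕ)) hcomm hint (threeLattice N)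
      stab_threeLattice f0 hv
  have huniq : ∀ (t : CuspForm.heckeAlgebra N 2 (∅ : Set ℕ)) (c : ℂ),
      (t : Module.End ℂ (CuspForm Γ₀(N) 2)) w = c • w → (lam t : ℂ) = c := by
    intro t c hc
    have h1 := hev t
    rw [hc] at h1
    exact (smul_left_injective ℂ hw h1).symm
  -- `3 ∈ 𝔪'`
  have h3 : ((3 : ℕ) : integralClosure ℤ ℂ) ∈ 𝔪' := by
    let t3 : CuspForm.heckeAlgebra N 2 (∅ : Set ℕ) :=
      ⟨(3 : ℤ) • 1, Subalgebra.zsmul_mem _ (Subalgebra.one_mem _) 3⟩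
    have ht3 : ∀ x, (t3 : Module.End ℂ (CuspForm Γ₀(N) 2)) x = (3 : ℂ) • x := by
      intro x
      show ((3 : ℤ) • (1 : Module.End ℂ (CuspForm Γ₀(N) 2))) x = (3 : ℂ) • x
      rw [LinearMap.smul_apply, Module.End.one_apply, ← Int.cast_smul_eq_zsmul ℂ]
      norm_num
    have h1 : lam t3 ∈ 𝔪' := hlam t3 (by
      rw [ht3]
      exact (mem_threeLattice_iff _).mpr ⟨f0, hf0L, rfl⟩)
    have h2 : (lam t3 : ℂ) = 3 := huniq t3 3 (ht3 w)
    have h3' : lam t3 = ((3 : ℕ) : integralClosure ℤ ℂ) := Subtype.ext (by rw [h2]; norm_cast)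
    rwa [h3'] at h1
  -- eigen-relations for the coefficients of `w`
  let b : ℕ → ℂ := fun n => qCoeff w n
  let e' : ℕ → ℂ := fun ℓ => if ℓ ∣ N then 0 else (ℓ : ℂ)
  let c : ℕ → ℂ := fun ℓ => if hℓ : ℓ.Prime then
      (if hN : ℓ ∣ N then (lam (heckeAlgebra.U hℓ hN (Set.notMem_empty ℓ)) : ℂ)
        else (lam (heckeAlgebra.T hℓ hN (Set.notMem_empty ℓ)) : ℂ)) else 0
  have H : ∀ ℓ : ℕ, ℓ.Prime → ∀ n : ℕ,
      b (ℓ * n) + e' ℓ * (if ℓ ∣ n then b (n / ℓ) else 0) = c ℓ * b n := by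
    intro ℓ hℓ n
    by_cases hN : ℓ ∣ N
    · have h1 := hev (heckeAlgebra.U hℓ hN (Set.notMem_empty ℓ))
      rw [heckeAlgebra.coe_U] at h1
      have h2 : qCoeff (CuspForm.heckeULin 2 hN w) n
          = qCoeff (⇑((lam (heckeAlgebra.U hℓ hN (Set.notMem_empty ℓ)) : ℂ) • w)) n := by
        rw [h1]
      rw [qCoeff_U_apply hℓ hN, qCoeff_smul] at h2
      simp only [b, e', c, dif_pos hℓ, dif_pos hN, if_pos hN, zero_mul, add_zero, mul_comm ℓ n]
      exact h2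
    · have h1 := hev (heckeAlgebra.T hℓ hN (Set.notMem_empty ℓ))
      rw [heckeAlgebra.coe_T] at h1
      have h2 : qCoeff (CuspForm.heckeTLin 2 hℓ hN w) n
          = qCoeff (⇑((lam (heckeAlgebra.T hℓ hN (Set.notMem_empty ℓ)) : ℂ) • w)) n := by
        rw [h1]
      rw [qCoeff_T_apply hℓ hN, qCoeff_smul] at h2
      simp only [b, e', c, dif_pos hℓ, dif_neg hN, if_neg hN, mul_comm ℓ n]
      exact h2
  have hb1 : b 1 ≠ 0 := by
    intro hb1
    apply hw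
    apply eq_zero_of_qCoeff_eq_zero
    exact eigen_rel_eq_zero (qCoeff_cusp_zero w) hb1 H
  obtain ⟨heig', hc⟩ := eigen_rel_normalize hb1 H
  have hrec := isRecursive_of_isEigensystem heig'
  have hf : ∀ n, qCoeff (⇑((b 1)⁻¹ • w)) n = (b 1)⁻¹ * b n := fun n => qCoeff_smul _ _ _
  refine ⟨(b 1)⁻¹ • w, ⟨?_, ?_, ?_, ?_⟩, 𝔪', h𝔪', h3, ?_⟩
  · rw [hf]
    exact hrec.1
  · intro m n hmn
    rw [hf, hf, hf]
    exact hrec.2.1 m n hmn
  · intro p r hp hpN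
    rw [hf, hf, hf, hf]
    have h1 := hrec.2.2 p r hp
    simp only [e', if_neg hpN] at h1
    exact h1
  · intro p r hp hpN
    rw [hf, hf, hf]
    have h1 := hrec.2.2 p r hp
    simp only [e', if_pos hpN, zero_mul, sub_zero] at h1
    exact h1
  · intro ℓ hℓ hℓN
    refine ⟨lam (heckeAlgebra.T hℓ hℓN (Set.notMem_empty ℓ)), ?_, ?_⟩
    · rw [hf, hc ℓ hℓ]
      simp only [c, dif_pos hℓ, dif_neg hℓN]
    · let t : CuspForm.heckeAlgebra N 2 (∅ : Set ℕ) :=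
        ⟨CuspForm.heckeTLin 2 hℓ hℓN - (a ℓ) • 1,
          Subalgebra.sub_mem _ (heckeTLin_mem_heckeAlgebra hℓ hℓN (Set.notMem_empty ℓ))
            (Subalgebra.zsmul_mem _ (Subalgebra.one_mem _) _)⟩
      have ht : ∀ x, (t : Module.End ℂ (CuspForm Γ₀(N) 2)) x
          = CuspForm.heckeTLin 2 hℓ hℓN x - (a ℓ : ℂ) • x := by
        intro x
        show (CuspForm.heckeTLin 2 hℓ hℓN - (a ℓ) • (1 : Module.End ℂ (CuspForm Γ₀(N) 2))) x = _
        rw [LinearMap.sub_apply, LinearMap.smul_apply, Module.End.one_apply,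
          ← Int.cast_smul_eq_zsmul ℂ]
      have h1 : lam t ∈ 𝔪' := hlam t (by
        rw [ht]
        apply mem_threeLattice_of_coeff
        intro n
        obtain ⟨m, hm⟩ := three_dvd_hecke_rel hafa ℓ n (chiNegThree ℓ)
          (three_dvd_sub_chiNegThree ℓ) (by
            have h2 := heig.2 ℓ hℓ n
            simpa [if_neg hℓN] using h2)
        refine ⟨m, ?_⟩
        rw [qCoeff_sub, qCoeff_smul, qCoeff_T_apply]
        simp only [← haf]
        have hm' := congrArg (Int.cast : ℤ → ℂ) hm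
        push_cast at hm'
        exact hm')
      have h2 : (lam t : ℂ) = (lam (heckeAlgebra.T hℓ hℓN (Set.notMem_empty ℓ)) : ℂ) - (a ℓ : ℂ) :=
        huniq t _ (by
          rw [ht, sub_smul, ← hev]
          rfl)
      have h3' : lam t = lam (heckeAlgebra.T hℓ hℓN (Set.notMem_empty ℓ))
          - (a ℓ : integralClosure ℤ ℂ) := Subtype.ext (by rw [h2]; simp)
      rwa [h3'] at h1

end Fermat.Agent.S49
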