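-- Statement S51 (row 45): for a semistable integral Weierstrass curve, at least one of the mod-3 and
-- mod-5 representations is irreducible.  Proof: Fermat/Agent/S51/*.lean (rational points of X₀(15)).
import Fermat.Statements.S51
import Fermat.Agent.S51.Main

set_option autoImplicit false
open WeierstrassCurve WeierstrassCurve.Affine WeierstrassCurve.Affine.Point
open CuspForm ModularFormClass UpperHalfPlane
open WeierstrassCurve

namespace Fermat.Agent.S51

theorem result (W : WeierstrassCurve ℤ) (hΔ : W.Δ ≠ 0) (hW : W.IsSemistableModel) : W.ModRepIsIrreducible 3 ∨ W.ModRepIsIrreducible 5 :=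
  Main.main W hΔ hW

end Fermat.Agent.S51
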