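import Fermat.Statements.S54
import Fermat.Agent.S54_Frob

set_option autoImplicit false
open GaloisRep GaloisRep.DeformationRingData

namespace Fermat.Agent.S54

open Polynomial in
/-- The trace of an endomorphism of a finite free module is minus the next-to-leading
coefficient of its characteristic polynomial. -/
theorem trace_eq_neg_charpoly_nextCoeff {R M : Type*} [CommRing R] [Nontrivial R]
    [AddCommGroup M] [Module R M] [Module.Free R M] [Module.Finite R M] (f : M →ₗ[R] M) :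
    LinearMap.trace R M f = -f.charpoly.nextCoeff := by
  rw [LinearMap.trace_eq_matrix_trace R (Module.Free.chooseBasis R M) f,
    ← LinearMap.charpoly_toMatrix f (Module.Free.chooseBasis R M),
    Matrix.trace_eq_neg_charpoly_nextCoeff]

open Polynomial in
/-- In rank two, a characteristic polynomial `X ^ 2 - a X + b` forces the trace to be `a`. -/
theorem trace_eq_of_charpoly_eq {R M : Type*} [CommRing R] [Nontrivial R]
    [AddCommGroup M] [Module R M] [Module.Free R M] [Module.Finite R M]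
    (hrank : Module.finrank R M = 2) (f : M →ₗ[R] M) (a b : R)
    (h : f.charpoly = X ^ 2 - C a * X + C b) : LinearMap.trace R M f = a := by
  have hdeg : f.charpoly.natDegree = 2 := by rw [LinearMap.charpoly_natDegree, hrank]
  rw [trace_eq_neg_charpoly_nextCoeff, nextCoeff, if_neg (by rw [hdeg]; norm_num), hdeg, h]
  simp [coeff_X_pow, coeff_C]

theorem result {𝒪 : Type} [CommRing 𝒪] [IsDomain 𝒪] [IsDiscreteValuationRing 𝒪] [IsAdicComplete (IsLocalRing.maximalIdeal 𝒪) 𝒪] {ρbar : ResidualGaloisRep (IsLocalRing.ResidueField 𝒪)} {𝒟 : ∀ ⦃A : Type⦄ [CommRing A] [IsLocalRing A] [Algebra 𝒪 A], GaloisRepAdic A → Prop} (D : GaloisRep.DeformationRingData 𝒪 ρbar 𝒟) {N : ℕ} [NeZero N] {S : Set ℕ} {θ : CuspForm.heckeAlgebra N 2 S →+* IsLocalRing.ResidueField 𝒪} {T : Type} [CommRing T] [IsLocalRing T] [IsNoetherianRing T] [IsAdicComplete (IsLocalRing.maximalIdeal T) T] [Algebra 𝒪 T] [IsLocalHom (algebraMap 𝒪 T)] [Module.Finite 𝒪 T] [Module.Free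 𝒪 T] (H : CuspForm.HeckeGaloisRepDatum N S 𝒪 θ T) (hS : ∀ q : ℕ, q.Prime → q ∣ N → q ∈ S) (h𝒟 : 𝒟 H.ρ) (hres : H.ρ.residual.IsEquiv (ρbar.baseChangeAlong (IsLocalRing.ResidueField.map (algebraMap 𝒪 T)))) : ∃ φ : D.R →ₐ[𝒪] T, Function.Surjective φ ∧ ∃ hφ : IsLocalHom (φ : D.R →+* T), (D.ρ.baseChangeAlong (φ : D.R →+* T) hφ).IsEquiv H.ρ := by
  obtain ⟨φ, ⟨hφ, hequiv⟩, -⟩ := D.universal T H.residue_surjective H.ρ h𝒟 hres
  refine ⟨φ, ?_, hφ, hequiv⟩
  obtain ⟨e⟩ := hequiv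
  -- traces of the Hecke-side representation lie in the range of `φ`
  have htrace : ∀ σ : AlgebraicClosure ℚ ≃ₐ[ℚ] AlgebraicClosure ℚ,
      LinearMap.trace T H.ρ.V (H.ρ.ρ σ) ∈ φ.range := by
    intro σ
    let _ : Algebra D.R T := (φ : D.R →+* T).toAlgebra
    have h1 : H.ρ.ρ σ = e.toLinearEquiv.conj ((D.ρ.baseChangeAlong (φ : D.R →+* T) hφ).ρ σ) := by
      apply LinearMap.ext
      intro x
      rw [LinearEquiv.conj_apply_apply, e.map_apply, LinearEquiv.apply_symm_apply]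
    have h2 : LinearMap.trace T (D.ρ.baseChangeAlong (φ : D.R →+* T) hφ).V
        ((D.ρ.baseChangeAlong (φ : D.R →+* T) hφ).ρ σ) =
          algebraMap D.R T (LinearMap.trace D.R D.ρ.V (D.ρ.ρ σ)) :=
      LinearMap.trace_baseChange (D.ρ.ρ σ) T
    rw [h1, LinearMap.trace_conj', h2]
    exact ⟨_, rfl⟩
  -- hence the Hecke operators `T_ℓ` land in the range of `φ`
  have hT : ∀ {ℓ : ℕ} (hℓ : ℓ.Prime) (hℓN : ¬ ℓ ∣ N) (hℓS : ℓ ∉ S),
      H.π (CuspForm.heckeAlgebra.T hℓ hℓN hℓS) ∈ φ.range := by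
    intro ℓ hℓ hℓN hℓS
    obtain ⟨A, hA⟩ := exists_liesOverPrime (L := AlgebraicClosure ℚ) hℓ
    obtain ⟨σ, hσ⟩ := exists_isFrobeniusAt A hℓ hA
    have hcp := H.charpoly_frob ℓ hℓ hℓN hℓS A hA σ hσ
    rw [← trace_eq_of_charpoly_eq H.ρ.finrank_eq _ _ _ hcp]
    exact htrace σ
  -- so the whole image of `π` does
  have hrange : ∀ t : CuspForm.heckeAlgebra N 2 S, H.π t ∈ φ.range := by
    rintro ⟨x, hx⟩
    induction hx using Algebra.adjoin_induction with
    | mem x hx =>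
      rcases hx with ⟨ℓ, hℓ, hℓN, hℓS, rfl⟩ | ⟨q, hqN, hq, hqS, rfl⟩
      · exact hT hℓ hℓN hℓS
      · exact absurd (hS q hq hqN) hqS
    | algebraMap r =>
      have h1 : (⟨algebraMap ℤ _ r, Subalgebra.algebraMap_mem _ r⟩ : CuspForm.heckeAlgebra N 2 S) =
          ((r : ℤ) : CuspForm.heckeAlgebra N 2 S) := Subtype.ext (by simp)
      rw [h1, map_intCast]
      exact intCast_mem _ r
    | add x y hx hy ihx ihy =>
      have h1 : (⟨x + y, Subalgebra.add_mem _ hx hy⟩ : CuspForm.heckeAlgebra N 2 S) =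
          ⟨x, hx⟩ + ⟨y, hy⟩ := rfl
      rw [h1, map_add]
      exact Subalgebra.add_mem _ ihx ihy
    | mul x y hx hy ihx ihy =>
      have h1 : (⟨x * y, Subalgebra.mul_mem _ hx hy⟩ : CuspForm.heckeAlgebra N 2 S) =
          ⟨x, hx⟩ * ⟨y, hy⟩ := rfl
      rw [h1, map_mul]
      exact Subalgebra.mul_mem _ ihx ihy
  have htop : φ.range = ⊤ := by
    rw [eq_top_iff, ← H.adjoin_range_π]
    exact Algebra.adjoin_le (by rintro _ ⟨t, rfl⟩; exact hrange t)
  exact (AlgHom.range_eq_top φ).mp htop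

end Fermat.Agent.S54
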