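-- Statement S57 (patching descent step): proof via projective dimension over the power series ring.
import Fermat.Statements.S57
import Fermat.Agent.S57.Free

set_option autoImplicit false
open Algebra Algebra.PatchingLevel

namespace Fermat.Agent.S57

theorem result
    {𝒪 : Type} [CommRing 𝒪] [IsDomain 𝒪] [IsDiscreteValuationRing 𝒪]
    {r : ℕ} {R : Type} [CommRing R] [Algebra 𝒪 R]
    {M : Type} [AddCommGroup M] [Module R M] [Nontrivial M]
    (L : Algebra.PatchingLevel 𝒪 r R M ⊥) :
    Module.Free R M ∧ Module.annihilator R M = ⊥ ∧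
      RingHom.ker L.ψ = Ideal.span (Set.range fun i : Fin r => L.φ (MvPowerSeries.X i)) := by
  haveI hfree : Module.Free (MvPowerSeries (Fin r) 𝒪) L.N := free_N L
  haveI hntN : Nontrivial L.N := L.π_surjective.nontrivial
  let e := Module.Free.chooseBasis (MvPowerSeries (Fin r) 𝒪) L.N
  -- coordinates of elements of `I • N` lie in `I`
  have key : ∀ x ∈ (Ideal.span (Set.range fun i : Fin r => L.φ (MvPowerSeries.X i)) •
      (⊤ : Submodule (MvPowerSeries (Fin r) 𝒪) L.N)), ∀ j,
      e.repr x j ∈ Ideal.span (Set.range fun i : Fin r => L.φ (MvPowerSeries.X i)) := by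
    intro x hx
    refine Submodule.smul_induction_on hx ?_ ?_
    · intro a ha n _ j
      rw [map_smul, Finsupp.smul_apply, smul_eq_mul]
      exact Ideal.mul_mem_right _ _ ha
    · intro x y hx hy j
      rw [map_add, Finsupp.add_apply]
      exact Ideal.add_mem _ (hx j) (hy j)
  have hker : RingHom.ker L.ψ =
      Ideal.span (Set.range fun i : Fin r => L.φ (MvPowerSeries.X i)) := by
    apply le_antisymm
    · intro f hf
      obtain ⟨j⟩ : Nonempty (Module.Free.ChooseBasisIndex (MvPowerSeries (Fin r) 𝒪) L.N) :=
        e.index_nonempty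
      have h0 : L.π (f • e j) = 0 := by
        rw [L.π_smul, (RingHom.mem_ker).mp hf, zero_smul]
      have := key _ ((L.ker_π _).mp h0) j
      simpa using this
    · rw [Ideal.span_le]
      rintro _ ⟨i, rfl⟩
      exact L.ψ_φ_X i
  have hli : LinearIndependent R (fun j => L.π (e j)) := by
    rw [linearIndependent_iff']
    intro s g hg j hj
    choose G hG using fun i => L.ψ_surjective (g i)
    have h0 : L.π (∑ i ∈ s, G i • e i) = 0 := by
      rw [map_sum, ← hg]
      exact Finset.sum_congr rfl (fun i _ => by rw [L.π_smul, hG])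
    have h1 := key _ ((L.ker_π _).mp h0) j
    have h2 : e.repr (∑ i ∈ s, G i • e i) j = G j := by
      classical
      simp [Finsupp.single_apply, hj]
    rw [h2, ← hker] at h1
    rw [← hG j]
    exact h1
  have hsp : ⊤ ≤ Submodule.span R (Set.range fun j => L.π (e j)) := by
    intro m _
    obtain ⟨x, rfl⟩ := L.π_surjective m
    rw [← e.linearCombination_repr x, Finsupp.linearCombination_apply, Finsupp.sum, map_sum]
    exact Submodule.sum_mem _ fun j _ => by
      rw [L.π_smul]
      exact Submodule.smul_mem _ _ (Submodule.subset_span ⟨j, rfl⟩)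
  haveI hfreeM : Module.Free R M := Module.Free.of_basis (Module.Basis.mk hli hsp)
  exact ⟨hfreeM, Module.annihilator_eq_bot.mpr inferInstance, hker⟩

end Fermat.Agent.S57
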